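/-
PROGRAMME ORD (S33), chapter NSN (helper9).  `OrthN9` = (ORTH) ON A SEMISTABLE DATUM: reduction of
finite-dimensional spaces of functions with respect to the MAXIMUM OF THE TWISTED GAUSS NORMS of the
components (nodal version of `FF/NS/Orth9`).

`𝔻 : SemiRedDatum L F k Ft ι E`, `ι`, `E` finite, `k` infinite, `z : ι → F` nonzero twists.

* `CompDatum.finite_not_poleFree`, `CompDatum.poleFreeSub` : ports of `Orth9` to `CompDatum`;
* `infinite_place_red` : the reduced function field has infinitely many places;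
* `exists_normFam` : simultaneous normalisation of a family `(y w)_w` of nonzero functions;
* `redT 𝔻 z y : ι → Ft` : the tuple of the reductions of `z w * y` (`0` where not integral);
* `exists_red_indepN` : a finite-dimensional `L`-subspace `V ⊂ F` contains `dim V` functions `v a`
  with `z w * v a ∈ G w` for all components `w`, whose TUPLES of reductions `redT 𝔻 z (v a)` are
  `k`-linearly independent (echelon induction by evaluation at one point of a generic smooth residue
  disc of a component where the twisted norm is maximal).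
-/
import Mathlib
import Fermat.Agent.ORD.KERN.KerN9
import Fermat.Agent.FF.NS.GenPos9
import Fermat.Agent.X0.LaurentPlace

set_option autoImplicit false
set_option linter.unusedSectionVars false
set_option linter.style.longLine false

namespace Fermat.Agent.ORD.NSN.OrthN9

open AlgebraicCurve Fermat.Agent.X0.FF Fermat.Agent.RR.LSpace Fermat.Agent.MW.EMB.Value6
open Fermat.Agent.ORD.ANN.Side3
open Fermat.Agent.ORD.SEMIRED.SemiRedDatum9 Fermat.Agent.ORD.REDN.DiscC9
open Fermat.Agent.FF.NS.GenPos9

noncomputable section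

variable {L F k Ft : Type*} [Field L] [Field F] [Algebra L F] [Field k] [Field Ft] [Algebra k Ft]

/-! ### ports of `Orth9` to `CompDatum` -/

section Comp

variable (D : CompDatum L F k Ft)

/-- The `L`-subspace of functions without poles on the disc of `Q`. -/
def poleFreeSub (Q : Place k Ft) : Submodule L F where
  carrier := {s | D.PoleFree s Q}
  add_mem' := fun hs ht => poleFree_add D hs ht
  zero_mem' := by
    have := poleFree_const D (0 : L) Q
    rwa [map_zero] at this
  smul_mem' := fun c s hs => by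
    show D.PoleFree (c • s) Q
    rw [Algebra.smul_def]
    exact poleFree_mul D (poleFree_const D c Q) hs

theorem mem_poleFreeSub {Q : Place k Ft} {s : F} : s ∈ poleFreeSub D Q ↔ D.PoleFree s Q := Iff.rfl

/-- The discs on which `s` has a pole are finite in number. -/
theorem finite_not_poleFree (s : F) : {Q : Place k Ft | ¬ D.PoleFree s Q}.Finite := by
  have h1 : (D.r '' {P : Place L F | P.ord s < 0}).Finite := (finite_ord_neg D.HL s).image D.r
  refine (h1.preimage (Option.some_injective _).injOn).subset ?_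
  intro Q hQ
  simp only [Set.mem_setOf_eq, CompDatum.PoleFree, not_forall, not_le] at hQ
  obtain ⟨P, hP, hneg⟩ := hQ
  exact ⟨P, hneg, hP⟩

end Comp

/-- A function field satisfying `LHyp` over an infinite field has infinitely many places. -/
theorem infinite_place_of_lhyp (Hk : LHyp k Ft) [Infinite k] : Infinite (Place k Ft) := by
  obtain ⟨Q⟩ := Hk.nonempty
  obtain ⟨f, hf, h1⟩ := Fermat.Agent.X0.LaurentPlace.exists_ord_eq_one Q
  refine infinite_place Hk (x := f) fun c hc => ?_
  rw [hc, ffp_ord_algebraMap] at h1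
  exact zero_ne_one h1

/-! ### the semistable datum -/

variable {ι E : Type*} (𝔻 : SemiRedDatum L F k Ft ι E)

/-- the branches on a component are finite in number. -/
theorem finite_isBranch [Finite E] (w : ι) : {Q : Place k Ft | 𝔻.IsBranch w Q}.Finite := by
  refine ((Set.finite_range 𝔻.Qs).union (Set.finite_range 𝔻.Qt)).subset ?_
  rintro Q (⟨e, -, rfl⟩ | ⟨e, -, rfl⟩)
  · exact Or.inl ⟨e, rfl⟩
  · exact Or.inr ⟨e, rfl⟩

/-- **Simultaneous normalisation of a family**: `c • y w` is integral on the component `w` for every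
`w`, with nonzero reduction for at least one `w`. -/
theorem exists_normFam [Finite ι] [Nonempty ι] {y : ι → F} (hy : ∀ w, y w ≠ 0) :
    ∃ c : L, c ≠ 0 ∧ (∀ w, algebraMap L F c * y w ∈ 𝔻.G w) ∧ ∃ w, (𝔻.side w).IsNorm c (y w) := by
  choose c hc using fun w => (𝔻.side w).exists_isNorm (hy w)
  obtain ⟨w0, hw0⟩ := Finite.exists_min (fun w => 𝔻.B.A.valuation (c w))
  refine ⟨c w0, (hc w0).c_ne_zero, fun w => ?_, w0, hc w0⟩
  have hcw : c w ≠ 0 := (hc w).c_ne_zero
  have hmem : c w0 / c w ∈ 𝔻.B.A := by
    rw [← ValuationSubring.valuation_le_one_iff, map_div₀]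
    exact div_le_one_of_le₀ (hw0 w) zero_le'
  have e : algebraMap L F (c w0) * y w =
      algebraMap L F (c w0 / c w) * (algebraMap L F (c w) * y w) := by
    rw [← mul_assoc, ← map_mul, div_mul_cancel₀ _ hcw]
  rw [e]
  exact (𝔻.G w).mul_mem ((𝔻.side w).const_mem ⟨_, hmem⟩) (hc w).mem

/-- the tuple of the reductions of the twisted function `z w * y` (`0` where it is not integral). -/
def redT (z : ι → F) (y : F) : ι → Ft := fun w => (𝔻.side w).nred 1 (z w * y)

theorem redT_apply_of_mem (z : ι → F) {y : F} {w : ι} (h : z w * y ∈ 𝔻.G w) :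
    redT 𝔻 z y w = 𝔻.red w ⟨z w * y, h⟩ := (𝔻.side w).nred_one_of_mem h

/-- Evaluation of the twisted functions at `P` on a subspace where they are regular at `P`. -/
def evalTw (P : Place L F) (zz : F) (V : Submodule L F)
    (hV : ∀ y ∈ V, zz * y ∈ P.toValuationSubring) : V →ₗ[L] L where
  toFun y := valF 𝔻.HL P (zz * (y : F))
  map_add' y y' := by
    show valF 𝔻.HL P (zz * ((y : F) + (y' : F))) = _
    rw [mul_add]
    exact valF_add 𝔻.HL P (hV y y.2) (hV y' y'.2)
  map_smul' c y := by
    simp only [RingHom.id_apply]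
    show valF 𝔻.HL P (zz * (c • (y : F))) = c • valF 𝔻.HL P (zz * (y : F))
    rw [mul_smul_comm, valF_smul 𝔻.HL P c (hV y y.2), smul_eq_mul]

theorem exists_red_indepN_aux [Infinite k] [Finite ι] [Nonempty ι] [Finite E] (z : ι → F)
    (hz : ∀ w, z w ≠ 0) : ∀ (n : ℕ) (V : Submodule L F),
    FiniteDimensional L V → Module.finrank L V = n →
    ∃ v : Fin n → F, (∀ a, v a ∈ V) ∧ (∀ a w, z w * v a ∈ 𝔻.G w) ∧
      LinearIndependent k (fun a => redT 𝔻 z (v a)) := by
  classical
  haveI := infinite_place_of_lhyp 𝔻.Hk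
  intro n
  induction n with
  | zero =>
    intro V _ _
    exact ⟨Fin.elim0, fun a => a.elim0, fun a => a.elim0, linearIndependent_empty_type⟩
  | succ n ih =>
    intro V hfd hrank
    haveI := hfd
    -- a nonzero element of `V`, normalised for the maximum of the twisted norms
    have hVne : V ≠ ⊥ := by
      intro h0
      rw [h0, finrank_bot] at hrank
      omega
    obtain ⟨y, hyV, hy0⟩ := (Submodule.ne_bot_iff V).mp hVne
    obtain ⟨c, hc0, hall, w1, hw1⟩ :=
      exists_normFam 𝔻 (y := fun w => z w * y) (fun w => mul_ne_zero (hz w) hy0)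
    set g : F := algebraMap L F c * y with hg
    have hgV : g ∈ V := by
      rw [hg, ← Algebra.smul_def]
      exact V.smul_mem _ hyV
    have hzg : ∀ w, z w * g = algebraMap L F c * (z w * y) := fun w => by rw [hg]; ring
    have hgG : ∀ w, z w * g ∈ 𝔻.G w := fun w => by rw [hzg w]; exact hall w
    have hgred : 𝔻.red w1 ⟨z w1 * g, hgG w1⟩ ≠ 0 := by
      have h1 := hw1.nred_ne_zero
      rw [hw1.nred_eq] at h1
      intro h0
      apply h1
      rw [← h0]
      congr 1
      exact Subtype.ext (hzg w1).symm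
    -- a generic smooth disc of the component `w1`
    set D1 : CompDatum L F k Ft := 𝔻.comp w1 with hD1
    let b := Module.finBasis L V
    have hbad : ((⋃ i, {Q : Place k Ft | ¬ D1.PoleFree (z w1 * ((b i : V) : F)) Q}) ∪
        {Q : Place k Ft | Q.ord (𝔻.red w1 ⟨z w1 * g, hgG w1⟩) ≠ 0} ∪
        {Q : Place k Ft | 𝔻.IsBranch w1 Q}).Finite :=
      ((Set.finite_iUnion fun i => finite_not_poleFree D1 _).union
        (finite_ord_ne_zero 𝔻.Hk hgred)).union (finite_isBranch 𝔻 w1)
    obtain ⟨Q, hQ⟩ := hbad.infinite_compl.nonempty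
    simp only [Set.mem_compl_iff, Set.mem_union, Set.mem_iUnion, Set.mem_setOf_eq, not_or,
      not_exists, not_not] at hQ
    obtain ⟨⟨hQb, hQg⟩, hQsm⟩ := hQ
    obtain ⟨P, hP⟩ := 𝔻.exists_r_of_isSm hQsm
    have hP1 : D1.r P = some Q := (𝔻.comp_r_eq_some_iff).mpr hP
    -- all of `z w1 • V` is pole-free on the disc of `Q`
    let m : F →ₗ[L] F := LinearMap.mulLeft L (z w1)
    have hVpf : V ≤ (poleFreeSub D1 Q).comap m := by
      have hspan : Submodule.span L (Set.range fun i => ((b i : V) : F)) = V := by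
        have h1 := b.span_eq
        have h2 := congrArg (Submodule.map V.subtype) h1
        rw [Submodule.map_span, Submodule.map_top, Submodule.range_subtype, ← Set.range_comp] at h2
        exact h2
      rw [← hspan, Submodule.span_le]
      rintro _ ⟨i, rfl⟩
      exact hQb i
    have hVpf' : ∀ y ∈ V, D1.PoleFree (z w1 * y) Q := fun y hy => hVpf hy
    have hVmem : ∀ y ∈ V, z w1 * y ∈ P.toValuationSubring := fun y hy =>
      poleFree_mem D1 (hVpf' y hy) hP1
    let ev := evalTw 𝔻 P (z w1) V hVmem
    -- the value of `z w1 * g` at `P` is a unit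
    have hgpf : D1.PoleFree (z w1 * g) Q := hVpf' g hgV
    have hvalg : valF 𝔻.HL P (z w1 * g) ≠ 0 := by
      intro h0
      have h1 := res_valF D1 ⟨z w1 * g, hgG w1⟩ hgpf hP1
      have h2 : valA D1 ⟨z w1 * g, hgG w1⟩ hgpf hP1 = 0 := Subtype.ext h0
      rw [h2, map_zero] at h1
      exact valF_ne_zero_of_ord_eq_zero 𝔻.Hk Q hgred hQg h1.symm
    -- the kernel of the evaluation
    have hsurj : LinearMap.range ev = ⊤ := by
      rw [LinearMap.range_eq_top]
      intro a
      refine ⟨(a / valF 𝔻.HL P (z w1 * g)) • ⟨g, hgV⟩, ?_⟩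
      rw [map_smul]
      show (a / valF 𝔻.HL P (z w1 * g)) • valF 𝔻.HL P (z w1 * g) = a
      rw [smul_eq_mul, div_mul_cancel₀ a hvalg]
    have hker : Module.finrank L (LinearMap.ker ev) = n := by
      have h1 := LinearMap.finrank_range_add_finrank_ker ev
      rw [hsurj, finrank_top, Module.finrank_self, hrank] at h1
      omega
    let V₁ : Submodule L F := (LinearMap.ker ev).map V.subtype
    have hV₁rank : Module.finrank L V₁ = n := by
      rw [← hker]
      exact (Submodule.equivMapOfInjective V.subtype V.injective_subtype _).finrank_eq.symm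
    have hV₁le : V₁ ≤ V := by
      rintro _ ⟨y, _, rfl⟩
      exact y.2
    have hV₁val : ∀ y ∈ V₁, valF 𝔻.HL P (z w1 * y) = 0 := by
      rintro _ ⟨y, hy, rfl⟩
      exact hy
    have hV₁fd : FiniteDimensional L V₁ := Submodule.finiteDimensional_of_le hV₁le
    obtain ⟨v', hv'mem, hv'G, hv'li⟩ := ih V₁ hV₁fd hV₁rank
    refine ⟨Fin.cons g v', ?_, ?_, ?_⟩
    · intro a
      refine Fin.cases ?_ (fun j => ?_) a
      · simpa using hgV
      · simpa using hV₁le (hv'mem j)
    · intro a w
      refine Fin.cases ?_ (fun j => ?_) a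
      · simpa using hgG w
      · simpa using hv'G j w
    · have hcomp : (fun a => redT 𝔻 z ((Fin.cons g v' : Fin (n + 1) → F) a)) =
          Fin.cons (redT 𝔻 z g) (fun j => redT 𝔻 z (v' j)) := by
        funext a
        refine Fin.cases ?_ (fun j => ?_) a <;> simp
      rw [hcomp, linearIndependent_fin_cons]
      refine ⟨hv'li, fun hmem => ?_⟩
      obtain ⟨γ, hγ⟩ := (Submodule.mem_span_range_iff_exists_fun k).mp hmem
      -- look at the component `w1` and evaluate at `Q`
      have hγ1 : ∑ j, γ j • 𝔻.red w1 ⟨z w1 * v' j, hv'G j w1⟩ =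
          𝔻.red w1 ⟨z w1 * g, hgG w1⟩ := by
        have := congrFun hγ w1
        rw [Finset.sum_apply, redT_apply_of_mem 𝔻 z (hgG w1)] at this
        rw [← this]
        refine Finset.sum_congr rfl fun j _ => ?_
        rw [Pi.smul_apply, redT_apply_of_mem 𝔻 z (hv'G j w1)]
      have hpfj : ∀ j, D1.PoleFree (z w1 * v' j) Q := fun j => hVpf' _ (hV₁le (hv'mem j))
      have hreg : ∀ j, 𝔻.red w1 ⟨z w1 * v' j, hv'G j w1⟩ ∈ Q.toValuationSubring := by
        intro j
        apply ffp_mem_of_ord_nonneg Q
        by_cases h0 : 𝔻.red w1 ⟨z w1 * v' j, hv'G j w1⟩ = 0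
        · rw [h0, Place.ord_zero]
        · exact D1.ord_red_nonneg (g := ⟨z w1 * v' j, hv'G j w1⟩) h0 ⟨P, hP1⟩ (hpfj j)
      have hval0 : ∀ j, valF 𝔻.Hk Q (𝔻.red w1 ⟨z w1 * v' j, hv'G j w1⟩) = 0 := by
        intro j
        have h1 := res_valF D1 ⟨z w1 * v' j, hv'G j w1⟩ (hpfj j) hP1
        have h2 : valA D1 ⟨z w1 * v' j, hv'G j w1⟩ (hpfj j) hP1 = 0 :=
          Subtype.ext (hV₁val _ (hv'mem j))
        rw [h2, map_zero] at h1
        exact h1.symm
      have h1 : valF 𝔻.Hk Q (𝔻.red w1 ⟨z w1 * g, hgG w1⟩) = 0 := by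
        rw [← hγ1, valF_sum 𝔻.Hk Q _ _ (fun j _ => by
          rw [Algebra.smul_def]
          exact mul_mem (Q.algebraMap_mem' _) (hreg j))]
        refine Finset.sum_eq_zero fun j _ => ?_
        rw [valF_smul 𝔻.Hk Q _ (hreg j), hval0 j, mul_zero]
      exact valF_ne_zero_of_ord_eq_zero 𝔻.Hk Q hgred hQg h1

/-- **(ORTH) on a semistable datum.**  A finite-dimensional space of functions contains `dim`
functions, integral on every component after the twists, whose tuples of reductions are linearly
independent. -/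
theorem exists_red_indepN [Infinite k] [Finite ι] [Nonempty ι] [Finite E] (z : ι → F)
    (hz : ∀ w, z w ≠ 0) (V : Submodule L F) [FiniteDimensional L V] :
    ∃ v : Fin (Module.finrank L V) → F, (∀ a, v a ∈ V) ∧ (∀ a w, z w * v a ∈ 𝔻.G w) ∧
      LinearIndependent k (fun a => redT 𝔻 z (v a)) :=
  exists_red_indepN_aux 𝔻 z hz _ V inferInstance rfl

/-- **(ORTH)**, untwisted form (`z = 1`): a finite-dimensional space of functions contains `dim`
functions integral on every component whose tuples of reductions are linearly independent. -/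
theorem exists_red_indep_one [Infinite k] [Finite ι] [Nonempty ι] [Finite E]
    (V : Submodule L F) [FiniteDimensional L V] :
    ∃ φ : Fin (Module.finrank L V) → F, (∀ i, φ i ∈ V) ∧ ∃ hG : ∀ i v, φ i ∈ 𝔻.G v,
      LinearIndependent k (fun i => (fun v => 𝔻.red v ⟨φ i, hG i v⟩ : ι → Ft)) := by
  obtain ⟨v, hvV, hvG, hli⟩ := exists_red_indepN 𝔻 (fun _ => (1 : F)) (fun _ => one_ne_zero) V
  have hG : ∀ i w, v i ∈ 𝔻.G w := fun i w => by
    have := hvG i w
    rwa [one_mul] at this
  refine ⟨v, hvV, hG, ?_⟩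
  have : (fun i => (fun w => 𝔻.red w ⟨v i, hG i w⟩ : ι → Ft)) =
      fun a => redT 𝔻 (fun _ => (1 : F)) (v a) := by
    funext i w
    rw [redT_apply_of_mem 𝔻 _ (hvG i w)]
    congr 1
    exact Subtype.ext (one_mul _).symm
  rw [this]
  exact hli

end

end Fermat.Agent.ORD.NSN.OrthN9
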