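/-
PROGRAMME ORD (S33), chapter NSN (helper9).  `GenPosN9` = GENERAL POSITION ON A DISJOINT UNION OF
COPIES OF A CURVE (the normalisation of the nodal special fibre): points are pairs `(w, v)` with `w : ι`
a component and `v : Place K F` a place of the function field of the components, functions are tuples
`ι → F`.  Nodal version of `FF/NS/GenPos9`; no characteristic assumption, no Riemann-Roch.

* `exists_genposN` : for `K`-linearly independent tuples `h : Fin g → (ι → F)` and a finite set `Bad`
  of points there are `g` DISTINCT points `(c i, P i) ∉ Bad`, all `h a (c i)` regular at `P i`, with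
  `det (h a (c i) (P i)) ≠ 0`.
-/
import Mathlib
import Fermat.Agent.FF.NS.GenPos9

set_option autoImplicit false
set_option linter.unusedSectionVars false
set_option linter.style.longLine false

namespace Fermat.Agent.ORD.NSN.GenPosN9

open AlgebraicCurve Fermat.Agent.X0.FF Fermat.Agent.RR.LSpace Fermat.Agent.MW.EMB.Value6
open Fermat.Agent.FF.NS.GenPos9

noncomputable section

variable {K F : Type*} [Field K] [Field F] [Algebra K F] {ι : Type*}
variable (H : LHyp K F) {g : ℕ} (h : Fin g → ι → F)

/-- The coefficient vectors `c` such that `∑ c_a h_a` vanishes on `S`. -/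
def evKer (S : Finset (ι × Place K F)) : Submodule K (Fin g → K) where
  carrier := {c | ∀ x ∈ S, ∑ a, c a * valF H x.2 (h a x.1) = 0}
  add_mem' := by
    intro c c' hc hc' x hx
    simp only [Pi.add_apply, add_mul, Finset.sum_add_distrib, hc x hx, hc' x hx, add_zero]
  zero_mem' := by
    intro x _
    simp
  smul_mem' := by
    intro r c hc x hx
    simp only [Pi.smul_apply, smul_eq_mul, mul_assoc, ← Finset.mul_sum, hc x hx, mul_zero]

theorem mem_evKer {S : Finset (ι × Place K F)} {c : Fin g → K} :
    c ∈ evKer H h S ↔ ∀ x ∈ S, ∑ a, c a * valF H x.2 (h a x.1) = 0 := Iff.rfl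

theorem evKer_insert_le [DecidableEq (ι × Place K F)] (S : Finset (ι × Place K F))
    (x : ι × Place K F) : evKer H h (insert x S) ≤ evKer H h S := fun _ hc y hy =>
  hc y (Finset.mem_insert_of_mem hy)

theorem finite_preimage_mk (w : ι) {T : Set (ι × Place K F)} (hT : T.Finite) :
    {v : Place K F | (w, v) ∈ T}.Finite :=
  hT.preimage (f := fun v : Place K F => (w, v))
    (fun _ _ _ _ hab => (Prod.mk.inj hab).2)

/-- The inductive step: a generic new point cuts the kernel down. -/
theorem exists_step [DecidableEq (ι × Place K F)] [Infinite (Place K F)] [Nonempty ι]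
    (hli : LinearIndependent K h)
    (Bad : Set (ι × Place K F)) (hBad : Bad.Finite) (S : Finset (ι × Place K F)) :
    ∃ x : ι × Place K F, x ∉ S ∧ x ∉ Bad ∧ (∀ a, 0 ≤ x.2.ord (h a x.1)) ∧
      Module.finrank K (evKer H h (insert x S)) ≤ Module.finrank K (evKer H h S) - 1 := by
  have hpoles : ∀ w : ι, (⋃ a, {v : Place K F | v.ord (h a w) < 0}).Finite := fun w =>
    Set.finite_iUnion fun a => finite_ord_neg H (h a w)
  by_cases hbot : evKer H h S = ⊥
  · obtain ⟨w⟩ := ‹Nonempty ι›
    have hfin : ({v : Place K F | (w, v) ∈ (↑S : Set (ι × Place K F))} ∪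
        {v : Place K F | (w, v) ∈ Bad} ∪ ⋃ a, {v : Place K F | v.ord (h a w) < 0}).Finite :=
      ((finite_preimage_mk w S.finite_toSet).union (finite_preimage_mk w hBad)).union (hpoles w)
    obtain ⟨v, hv⟩ := hfin.infinite_compl.nonempty
    simp only [Set.mem_compl_iff, Set.mem_union, Finset.mem_coe, Set.mem_iUnion, Set.mem_setOf_eq,
      not_or, not_exists, not_lt] at hv
    refine ⟨(w, v), hv.1.1, hv.1.2, hv.2, ?_⟩
    have hle : evKer H h (insert (w, v) S) ≤ ⊥ := hbot ▸ evKer_insert_le H h S (w, v)
    rw [le_bot_iff] at hle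
    rw [hle, finrank_bot]
    exact Nat.zero_le _
  · obtain ⟨c, hcW, hc0⟩ := (Submodule.ne_bot_iff _).mp hbot
    set f : ι → F := ∑ a, c a • h a with hf
    have hf0 : f ≠ 0 := by
      intro h0
      apply hc0
      have := (Fintype.linearIndependent_iff.mp hli) c h0
      exact funext this
    obtain ⟨w, hw⟩ : ∃ w, f w ≠ 0 := by
      by_contra hno
      push Not at hno
      exact hf0 (funext hno)
    have hfw : f w = ∑ a, c a • h a w := by
      rw [hf, Finset.sum_apply]
      rfl
    have hfin : ({v : Place K F | (w, v) ∈ (↑S : Set (ι × Place K F))} ∪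
        {v : Place K F | (w, v) ∈ Bad} ∪ (⋃ a, {v : Place K F | v.ord (h a w) < 0}) ∪
        {v : Place K F | v.ord (f w) ≠ 0}).Finite :=
      (((finite_preimage_mk w S.finite_toSet).union (finite_preimage_mk w hBad)).union
        (hpoles w)).union (finite_ord_ne_zero H hw)
    obtain ⟨v, hv⟩ := hfin.infinite_compl.nonempty
    simp only [Set.mem_compl_iff, Set.mem_union, Finset.mem_coe, Set.mem_iUnion, Set.mem_setOf_eq,
      not_or, not_exists, not_lt, not_not] at hv
    obtain ⟨⟨⟨hvS, hvB⟩, hvreg⟩, hvf⟩ := hv
    refine ⟨(w, v), hvS, hvB, hvreg, ?_⟩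
    have hmem : ∀ a, h a w ∈ v.toValuationSubring := fun a => ffp_mem_of_ord_nonneg v (hvreg a)
    have hval : valF H v (f w) = ∑ a, c a * valF H v (h a w) := by
      rw [hfw, valF_sum H v _ _ (fun a _ => by
        rw [Algebra.smul_def]
        exact mul_mem (v.algebraMap_mem' _) (hmem a))]
      exact Finset.sum_congr rfl fun a _ => valF_smul H v (c a) (hmem a)
    have hne : valF H v (f w) ≠ 0 := valF_ne_zero_of_ord_eq_zero H v hw hvf
    have hlt : evKer H h (insert (w, v) S) < evKer H h S := by
      refine lt_of_le_of_ne (evKer_insert_le H h S (w, v)) ?_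
      intro heq
      have hc' : c ∈ evKer H h (insert (w, v) S) := heq ▸ hcW
      exact hne (hval ▸ hc' (w, v) (Finset.mem_insert_self (w, v) S))
    have := Submodule.finrank_lt_finrank_of_lt hlt
    omega

/-- `m` generic points cut the kernel down to dimension `≤ g - m`. -/
theorem exists_finset [DecidableEq (ι × Place K F)] [Infinite (Place K F)] [Nonempty ι]
    (hli : LinearIndependent K h)
    (Bad : Set (ι × Place K F)) (hBad : Bad.Finite) (m : ℕ) :
    ∃ S : Finset (ι × Place K F), S.card = m ∧ (∀ x ∈ S, x ∉ Bad) ∧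
      (∀ x ∈ S, ∀ a, 0 ≤ x.2.ord (h a x.1)) ∧ Module.finrank K (evKer H h S) ≤ g - m := by
  induction m with
  | zero =>
    refine ⟨∅, rfl, by simp, by simp, ?_⟩
    calc Module.finrank K (evKer H h ∅) ≤ Module.finrank K (Fin g → K) :=
          Submodule.finrank_le _
      _ = g - 0 := by simp
  | succ m ih =>
    obtain ⟨S, hcard, hB, hreg, hrank⟩ := ih
    obtain ⟨x, hxS, hxB, hxreg, hstep⟩ := exists_step H h hli Bad hBad S
    refine ⟨insert x S, by rw [Finset.card_insert_of_notMem hxS, hcard], ?_, ?_, by omega⟩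
    · intro y hy
      rcases Finset.mem_insert.mp hy with rfl | hy
      · exact hxB
      · exact hB y hy
    · intro y hy
      rcases Finset.mem_insert.mp hy with rfl | hy
      · exact hxreg
      · exact hreg y hy

/-- **General position on the disjoint union of the components.** -/
theorem exists_genposN [Infinite (Place K F)] [Nonempty ι] (hli : LinearIndependent K h)
    (Bad : Set (ι × Place K F)) (hBad : Bad.Finite) :
    ∃ (c : Fin g → ι) (P : Fin g → Place K F), Function.Injective (fun i => (c i, P i)) ∧
      (∀ i, (c i, P i) ∉ Bad) ∧ (∀ i a, 0 ≤ (P i).ord (h a (c i))) ∧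
      (Matrix.of fun i a => valF H (P i) (h a (c i))).det ≠ 0 := by
  classical
  obtain ⟨S, hcard, hB, hreg, hrank⟩ := exists_finset H h hli Bad hBad g
  have hbot : evKer H h S = ⊥ := by
    have h0 : Module.finrank K (evKer H h S) = 0 := by omega
    exact Submodule.finrank_eq_zero.mp h0
  let e : Fin g ≃ S := (S.equivFinOfCardEq hcard).symm
  refine ⟨fun i => (e i : ι × Place K F).1, fun i => (e i : ι × Place K F).2, ?_,
    fun i => hB _ (e i).2, fun i a => hreg _ (e i).2 a, ?_⟩
  · intro i j hij
    exact e.injective (Subtype.ext hij)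
  · intro hdet
    obtain ⟨c, hc0, hc⟩ := Matrix.exists_mulVec_eq_zero_iff.mpr hdet
    apply hc0
    have hmem : c ∈ evKer H h S := by
      intro x hx
      have := congrFun hc (e.symm ⟨x, hx⟩)
      simp only [Matrix.mulVec, dotProduct, Matrix.of_apply, Equiv.apply_symm_apply,
        Pi.zero_apply] at this
      rw [← this]
      exact Finset.sum_congr rfl fun a _ => mul_comm _ _
    rw [hbot, Submodule.mem_bot] at hmem
    exact hmem

end

end Fermat.Agent.ORD.NSN.GenPosN9
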