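/-
PROGRAMME ORD (S33), chapter NSN (helper9): `NSInputN9` = the interface between the two halves of (NS)
on a semistable datum (nodal version of `FF/NS/NSInput5`).

`𝔻 : SemiRedDatum L F k Ft ι E`.  An `NSInputN 𝔻 g` consists of `g` centres `P i` in pairwise distinct
SMOOTH residue discs `(c i, Q i)` with good uniformizers `u i ∈ G (c i)`, and `g` regular differentials
`om a` of `F / L` which are INTEGRAL on every smooth residue disc of every component (`om a = psi • d u'`
with `psi ∈ G v`, for every good uniformizer `u'` of every place of a smooth disc of the component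
`v`), such that the `g × g` matrix of the values at `Q i` of the reductions of `om a / d (u i)` is
nondegenerate.

* produced by: `NSExistsN9.exists_nsInputN` ((ORTH) for the maximum of the twisted Gauss norms +
  (DLINK) component by component + general position on the disjoint union of the components);
* consumed by: `NonSpecialN` (residue comparison), which gives the non-speciality of `∑ (c i, Q i)` on
  the NODAL curve in the tuple form of `KerDefs9.NSSystemN.ns`, under the two global hypotheses
  - `LiftsMatched 𝔻` (LIFT): every tuple of reduced functions which is regular at the branches with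
    matched values lifts to a function integral on every component and without poles on the annuli;
  - `GraphConn 𝔻` (CONN): the dual graph is connected (functional form).
-/
import Mathlib
import Fermat.Agent.ORD.KERN.KerDefs9
import Fermat.Agent.FF.NS.NSInput5

set_option autoImplicit false
set_option linter.unusedSectionVars false
set_option linter.style.longLine false

namespace Fermat.Agent.ORD.NSN.NSInputN9

open AlgebraicCurve Fermat.Agent.X0.FF Fermat.Agent.RR.LSpace Fermat.Agent.MW.EMB.Value6
open Fermat.Agent.ORD.SEMIRED.SemiRedDatum9 Fermat.Agent.ORD.SEMIRED.ToSemiRed9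
open Fermat.Agent.ORD.KERN.KerDefs9
open scoped KaehlerDifferential

noncomputable section

variable {L F k Ft : Type*} [Field L] [Field F] [Algebra L F] [Field k] [Field Ft] [Algebra k Ft]
variable {ι E : Type*}

/-- The input of the residue-comparison proof of (NS) on a semistable datum. -/
structure NSInputN (𝔻 : SemiRedDatum L F k Ft ι E) (g : ℕ) where
  /-- the components carrying the centres -/
  c : Fin g → ι
  /-- the reduced centres -/
  Q : Fin g → Place k Ft
  /-- the centres -/
  P : Fin g → Place L F
  /-- good uniformizers at the centres -/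
  u : ∀ i, 𝔻.G (c i)
  hu : ∀ i, (𝔻.comp (c i)).IsGoodUnif (P i) (Q i) (u i)
  /-- the discs of the centres are pairwise distinct -/
  hinj : Function.Injective fun i => (c i, Q i)
  /-- the differentials -/
  om : Fin g → Ω[F⁄L]
  /-- they are regular -/
  hreg : ∀ (a : Fin g) (v : Place L F), 0 ≤ v.ordDifferential (om a)
  /-- they are integral on every smooth residue disc, with respect to every good uniformizer -/
  hint : ∀ (a : Fin g) (v : ι) (P' : Place L F) (Q' : Place k Ft) (u' : 𝔻.G v),
    (𝔻.comp v).IsGoodUnif P' Q' u' →
      ∃ psi : 𝔻.G v, om a = (psi : F) • KaehlerDifferential.D L F (u' : F)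
  /-- the coefficients at the centres -/
  psi : ∀ (_ : Fin g) (i : Fin g), 𝔻.G (c i)
  hpsi : ∀ a i, om a = (psi a i : F) • KaehlerDifferential.D L F (u i : F)
  /-- nondegeneracy of the matrix of values of the reductions -/
  nondeg : ∀ gam : Fin g → k,
    (∀ a, ∑ i, gam i * valF 𝔻.Hk (Q i) (𝔻.red (c i) (psi a i)) = 0) → gam = 0

/-- **(LIFT)**: every tuple of reduced functions, regular at the branches with matched values at the
nodes, lifts to a function integral on every component and without poles on the annuli. -/
def LiftsMatched (𝔻 : SemiRedDatum L F k Ft ι E) : Prop :=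
  ∀ f : ι → Ft, (∀ e, 0 ≤ (𝔻.Qs e).ord (f (𝔻.src e))) → (∀ e, 0 ≤ (𝔻.Qt e).ord (f (𝔻.tgt e))) →
    (∀ e, valF 𝔻.Hk (𝔻.Qs e) (f (𝔻.src e)) = valF 𝔻.Hk (𝔻.Qt e) (f (𝔻.tgt e))) →
    ∃ y : F, ∃ hy : ∀ v, y ∈ 𝔻.G v, (∀ v, 𝔻.red v ⟨y, hy v⟩ = f v) ∧ ∀ e, 𝔻.PoleFreeAnn y e

/-- **(CONN)**: the dual graph is connected: a function on the components which takes the same value
at the two ends of every edge is constant. -/
def GraphConn (𝔻 : SemiRedDatum L F k Ft ι E) : Prop :=
  ∀ d : ι → k, (∀ e, d (𝔻.src e) = d (𝔻.tgt e)) → ∃ a : k, ∀ v, d v = a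

/-- the target of chapter NSN: the reduced divisor of the input is non-special on the nodal curve. -/
def NSInputN.IsNonSpecial {𝔻 : SemiRedDatum L F k Ft ι E} {g : ℕ} (I : NSInputN 𝔻 g) : Prop :=
  (toSemiRed 𝔻).NonSpecial (fun v Q' => redDivOf (E := E) I.c I.Q (Sum.inl (v, Q')))

/-- An input of (NS) whose reduced divisor is non-special, and a smooth point off its centres, give a
non-special system. -/
def NSInputN.toNSSystemN {𝔻 : SemiRedDatum L F k Ft ι E} {g : ℕ} (I : NSInputN 𝔻 g)
    (hns : I.IsNonSpecial) (c0 : ι) (Q0 : Place k Ft) (sm0 : 𝔻.IsSm c0 Q0)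
    (hQ0 : ∀ i, (I.c i, I.Q i) ≠ (c0, Q0)) : NSSystemN 𝔻 g where
  c := I.c
  Q := I.Q
  P := I.P
  u := I.u
  good := I.hu
  inj := I.hinj
  ns := hns
  c0 := c0
  Q0 := Q0
  sm0 := sm0
  hQ0 := hQ0

end

end Fermat.Agent.ORD.NSN.NSInputN9
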