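/-
PROGRAMME ORD (S33), chapter NSN (helper9).  `NSExistsN9` = EXISTENCE OF THE INPUT OF (NS) ON A
SEMISTABLE DATUM: `exists_nsInputN`: for a semistable datum `𝔻` with finitely many components and
nodes, (DLINK) on every component (`hlink`, = `LinkC6.dunit_of_cover` for a chart cover of each
component), `F / L` of characteristic zero with Riemann-Roch (`hx : IsGen L x`), `k` infinite and a
finite set `Bad` of points of the components, there is an `NSInputN9.NSInputN 𝔻 (genus L F)` all of
whose centres reduce to smooth points outside `Bad`.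

Construction (nodal version of `FF/NS/NSExists9`): one base disc `(Pb w, ub w)` on every component `w`;
`u₀ := ub w₀` serves as global coordinate and `z w := d u₀ / d (ub w)` are the twists.  The
`g`-dimensional space `V = {φ : φ • d u₀ regular}` has `g` elements `v a` with `z w * v a ∈ G w` for
all `w` and `k`-independent TUPLES of reductions (`OrthN9.exists_red_indepN`); `om a := v a • d u₀`.
Integrality on every smooth disc is (DLINK).  The centres are chosen by `GenPosN9.exists_genposN` for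
the tuples `h a = redT 𝔻 z (v a)`, off `Bad`, off the branches and off the discs of the component `w`
containing zeros or poles of `d (ub w)`; then the value matrix is `h a (c i) (Q i) · ε i` with
`ε i ≠ 0`.
-/
import Mathlib
import Fermat.Agent.ORD.NSN.NSInputN9
import Fermat.Agent.ORD.NSN.OrthN9
import Fermat.Agent.ORD.NSN.GenPosN9
import Fermat.Agent.ORD.REDN.LinkC6
import Fermat.Agent.FF.NS.NSExists9

set_option autoImplicit false
set_option linter.unusedSectionVars false
set_option linter.style.longLine false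
set_option linter.style.haveILetI false

namespace Fermat.Agent.ORD.NSN.NSExistsN9

open AlgebraicCurve KaehlerDifferential Fermat.Agent.X0.FF Fermat.Agent.RR.LSpace
  Fermat.Agent.MW.EMB.Value6
open Fermat.Agent.ORD.ANN.Side3
open Fermat.Agent.ORD.SEMIRED.SemiRedDatum9 Fermat.Agent.ORD.REDN.DiscC9
  Fermat.Agent.ORD.REDN.LinkC6 Fermat.Agent.FF.NS.DiffVal9
  Fermat.Agent.ORD.NSN.NSInputN9 Fermat.Agent.ORD.NSN.OrthN9 Fermat.Agent.ORD.NSN.GenPosN9
open Fermat.Agent.FF.NS.NSExists9 (IsRegular exists_space finite_ordDifferential_ne_zero)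
open Fermat.Agent.FF.NS.GenPos9 (eq_zero_of_vecMul)

noncomputable section

variable {L F k Ft : Type*} [Field L] [Field F] [Algebra L F] [Field k] [Field Ft] [Algebra k Ft]
variable [IsAlgClosed L] [CharZero L] {x : F}

/-- If `ω = ψ • d u` on the disc of the good uniformizer `u`, `ψ` integral with nonzero reduction,
and `ω` has neither zero nor pole on the disc, then `red ψ` is a unit at the reduced place. -/
theorem ord_red_eq_zero_of_ordDifferential (D : CompDatum L F k Ft) (hx : IsGen L x)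
    {P : Place L F} {Q : Place k Ft} {u : D.G} (hu : D.IsGoodUnif P Q u) {ψ : D.G}
    (hψ : D.red ψ ≠ 0) {ω : Ω[F⁄L]} (hω : ω = (ψ : F) • KaehlerDifferential.D L F (u : F))
    (hz : ∀ P' : Place L F, D.r P' = some Q → P'.ordDifferential ω = 0) :
    Q.ord (D.red ψ) = 0 := by
  classical
  have hψ0 : (ψ : F) ≠ 0 := D.coe_ne_zero_of_red_ne_zero hψ
  have hDu : KaehlerDifferential.D L F (u : F) ≠ 0 :=
    D_ne_zero_of_transcendental hx (transcendental_of_isGoodUnif D hu)
  have hord : ∀ P' : Place L F, D.r P' = some Q → P'.ord (ψ : F) = 0 := by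
    intro P' hP'
    have h1 := hz P' hP'
    rw [hω, ordDifferential_smul' hx P' hψ0 hDu,
      ordDifferential_D_of_unif hx P' (hu.ord_sub_valF hP'), add_zero] at h1
    exact h1
  rw [← D.fibre_sum ψ hψ hu.sm]
  exact Finset.sum_eq_zero fun P' hP' => hord P' (Finset.mem_filter.mp hP').2

variable {ι E : Type*} (𝔻 : SemiRedDatum L F k Ft ι E)

/-- **(DLINK) on every component**: the differentials of any two good uniformizers on smooth discs of
the same component differ by a unit of the Gauss ring of that component. -/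
def DLink : Prop :=
  ∀ (w : ι) (P P' : Place L F) (Q Q' : Place k Ft) (u u' : 𝔻.G w),
    (𝔻.comp w).IsGoodUnif P Q u → (𝔻.comp w).IsGoodUnif P' Q' u' →
      DUnit (𝔻.comp w) (u : F) (u' : F)

/-- (DLINK) from a chart cover of every component. -/
theorem dlink_of_cover (hx : IsGen L x) {κ : ι → Type*}
    (C : ∀ w, ChartCoverC (𝔻.comp w) (κ w)) : DLink 𝔻 :=
  fun w _ _ _ _ _ _ hu hu' => dunit_of_cover hx (C w) hu hu'

/-- every component has a smooth point. -/
theorem exists_isSm [Infinite k] [Finite E] (w : ι) : ∃ Q : Place k Ft, 𝔻.IsSm w Q := by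
  haveI := infinite_place_of_lhyp 𝔻.Hk
  obtain ⟨Q, hQ⟩ := (finite_isBranch 𝔻 w).infinite_compl.nonempty
  exact ⟨Q, hQ⟩

variable [HasCanonicalDivisor (K := L) (F := F)]

/-- The case of positive genus. -/
theorem exists_nsInputN_succ (hx : IsGen L x) [Infinite k] [Finite ι] [Nonempty ι] [Finite E]
    (hlink : DLink 𝔻) (Bad : Set (ι × Place k Ft)) (hBad : Bad.Finite) (n : ℕ)
    (hg : genus L F = n + 1) :
    ∃ I : NSInputN 𝔻 (n + 1), ∀ i, (I.c i, I.Q i) ∉ Bad := by
  classical
  haveI := infinite_place_of_lhyp 𝔻.Hk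
  -- a base disc on every component
  choose Qb hQb using fun w => exists_isSm 𝔻 w
  choose Pb hPb using fun w => 𝔻.exists_r_of_isSm (hQb w)
  choose ub hub using fun w =>
    (𝔻.comp w).exists_isGoodUnif ((𝔻.comp_r_eq_some_iff).mpr (hPb w))
  have hubtr : ∀ w, Transcendental L (ub w : F) := fun w =>
    transcendental_of_isGoodUnif (𝔻.comp w) (hub w)
  have hDub : ∀ w, KaehlerDifferential.D L F (ub w : F) ≠ 0 := fun w =>
    D_ne_zero_of_transcendental hx (hubtr w)
  -- the global coordinate
  obtain ⟨w₀⟩ := ‹Nonempty ι›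
  set u₀ : F := (ub w₀ : F) with hu₀
  have hDu₀ : KaehlerDifferential.D L F u₀ ≠ 0 := hDub w₀
  -- the twists
  set z : ι → F := fun w => dq L u₀ (ub w : F) with hzdef
  have hzspec : ∀ w, KaehlerDifferential.D L F u₀ =
      z w • KaehlerDifferential.D L F (ub w : F) := fun w => dq_spec hx (hubtr w) u₀
  have hz0 : ∀ w, z w ≠ 0 := by
    intro w h0
    apply hDu₀
    rw [hzspec w, h0, zero_smul]
  -- the space of regular differentials and its reduced basis
  obtain ⟨V, hVfd, hVrank, hVreg⟩ := exists_space hx (hubtr w₀)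
  haveI := hVfd
  obtain ⟨v, hvV, hvG, hvli⟩ :=
    exists_red_indepN_aux 𝔻 z hz0 (n + 1) V hVfd (hVrank.trans hg)
  -- the differentials
  let om : Fin (n + 1) → Ω[F⁄L] := fun a => v a • KaehlerDifferential.D L F u₀
  have hreg : ∀ (a : Fin (n + 1)) (P : Place L F), 0 ≤ P.ordDifferential (om a) :=
    fun a => hVreg _ (hvV a)
  -- the tuples `h a`
  let h : Fin (n + 1) → ι → Ft := fun a => redT 𝔻 z (v a)
  -- the bad sets
  have hbad1 : {y : ι × Place k Ft | 𝔻.IsBranch y.1 y.2}.Finite := by
    have : {y : ι × Place k Ft | 𝔻.IsBranch y.1 y.2} ⊆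
        ⋃ w : ι, (fun Q => (w, Q)) '' {Q : Place k Ft | 𝔻.IsBranch w Q} := by
      rintro ⟨w, Q⟩ hy
      exact Set.mem_iUnion.mpr ⟨w, Q, hy, rfl⟩
    exact (Set.finite_iUnion fun w => (finite_isBranch 𝔻 w).image _).subset this
  have hbad2 : {y : ι × Place k Ft | ∃ P : Place L F, 𝔻.r P = Sum.inl (y.1, y.2) ∧
      P.ordDifferential (KaehlerDifferential.D L F (ub y.1 : F)) ≠ 0}.Finite := by
    have : {y : ι × Place k Ft | ∃ P : Place L F, 𝔻.r P = Sum.inl (y.1, y.2) ∧
        P.ordDifferential (KaehlerDifferential.D L F (ub y.1 : F)) ≠ 0} ⊆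
        ⋃ w : ι, (fun P : Place L F => match 𝔻.r P with
            | Sum.inl (w', Q) => (w', Q)
            | Sum.inr _ => (w, Qb w)) ''
          {P : Place L F | P.ordDifferential (KaehlerDifferential.D L F (ub w : F)) ≠ 0} := by
      rintro ⟨w, Q⟩ ⟨P, hP, hne⟩
      refine Set.mem_iUnion.mpr ⟨w, P, hne, ?_⟩
      simp only [hP]
    exact (Set.finite_iUnion fun w =>
      (finite_ordDifferential_ne_zero (hDub w)).image _).subset this
  obtain ⟨c, Q, hcQinj, hcQbad, hQreg, hdet⟩ := exists_genposN 𝔻.Hk h hvli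
    (Bad ∪ {y : ι × Place k Ft | 𝔻.IsBranch y.1 y.2} ∪
      {y : ι × Place k Ft | ∃ P : Place L F, 𝔻.r P = Sum.inl (y.1, y.2) ∧
        P.ordDifferential (KaehlerDifferential.D L F (ub y.1 : F)) ≠ 0})
    ((hBad.union hbad1).union hbad2)
  -- the centres
  have hsm : ∀ i, 𝔻.IsSm (c i) (Q i) := fun i hbr => hcQbad i (Or.inl (Or.inr hbr))
  choose P hP using fun i => 𝔻.exists_r_of_isSm (hsm i)
  choose u hu using fun i =>
    (𝔻.comp (c i)).exists_isGoodUnif ((𝔻.comp_r_eq_some_iff).mpr (hP i))
  -- (DLINK) at the centres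
  have hlink' : ∀ (w : ι) (P' : Place L F) (Q' : Place k Ft) (u' : 𝔻.G w),
      (𝔻.comp w).IsGoodUnif P' Q' u' → ∃ e : 𝔻.G w, 𝔻.red w e ≠ 0 ∧
        KaehlerDifferential.D L F (ub w : F) = (e : F) • KaehlerDifferential.D L F (u' : F) :=
    fun w P' Q' u' hu' => hlink w _ _ _ _ _ _ (hub w) hu'
  choose ε hεred hε using fun i => hlink' (c i) _ _ _ (hu i)
  let zv : ∀ (a : Fin (n + 1)) (w : ι), 𝔻.G w := fun a w => ⟨z w * v a, hvG a w⟩
  let psi : ∀ (_ : Fin (n + 1)) (i : Fin (n + 1)), 𝔻.G (c i) := fun a i => zv a (c i) * ε i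
  have hpsi : ∀ a i, om a = ((psi a i : 𝔻.G (c i)) : F) •
      KaehlerDifferential.D L F (u i : F) := by
    intro a i
    show v a • KaehlerDifferential.D L F u₀ =
      ((zv a (c i) * ε i : 𝔻.G (c i)) : F) • KaehlerDifferential.D L F (u i : F)
    rw [hzspec (c i), hε i, smul_smul, smul_smul, Subring.coe_mul]
    congr 1
    show v a * z (c i) * (ε i : F) = z (c i) * v a * (ε i : F)
    ring
  refine ⟨{ c := c, Q := Q, P := P, u := u, hu := hu, hinj := hcQinj, om := om, hreg := hreg,
            hint := ?_, psi := psi, hpsi := hpsi, nondeg := ?_ }, fun i hmem =>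
              hcQbad i (Or.inl (Or.inl hmem))⟩
  · intro a w P' Q' u' hu'
    obtain ⟨ε', _, hε'⟩ := hlink' w _ _ _ hu'
    refine ⟨zv a w * ε', ?_⟩
    show v a • KaehlerDifferential.D L F u₀ =
      ((zv a w * ε' : 𝔻.G w) : F) • KaehlerDifferential.D L F (u' : F)
    rw [hzspec w, hε', smul_smul, smul_smul, Subring.coe_mul]
    congr 1
    show v a * z w * (ε' : F) = z w * v a * (ε' : F)
    ring
  · intro gam hgam
    -- `d (ub (c i))` has neither zero nor pole on the chosen discs
    have hQ1 : ∀ i, ∀ P' : Place L F, (𝔻.comp (c i)).r P' = some (Q i) →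
        P'.ordDifferential (KaehlerDifferential.D L F (ub (c i) : F)) = 0 := by
      intro i P' hP'
      by_contra hne
      exact hcQbad i (Or.inr ⟨P', (𝔻.comp_r_eq_some_iff).mp hP', hne⟩)
    have hw : ∀ i, (Q i).ord (𝔻.red (c i) (ε i)) = 0 := fun i =>
      ord_red_eq_zero_of_ordDifferential (𝔻.comp (c i)) hx (hu i) (hεred i) (hε i) (hQ1 i)
    have hw0 : ∀ i, valF 𝔻.Hk (Q i) (𝔻.red (c i) (ε i)) ≠ 0 := fun i =>
      valF_ne_zero_of_ord_eq_zero 𝔻.Hk (Q i) (hεred i) (hw i)
    have hha : ∀ a i, h a (c i) = 𝔻.red (c i) (zv a (c i)) := fun a i =>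
      redT_apply_of_mem 𝔻 z (hvG a (c i))
    have hval : ∀ a i, valF 𝔻.Hk (Q i) (𝔻.red (c i) (psi a i)) =
        valF 𝔻.Hk (Q i) (h a (c i)) * valF 𝔻.Hk (Q i) (𝔻.red (c i) (ε i)) := by
      intro a i
      show valF 𝔻.Hk (Q i) (𝔻.red (c i) (zv a (c i) * ε i)) = _
      rw [map_mul, ← hha a i, valF_mul 𝔻.Hk (Q i) (ffp_mem_of_ord_nonneg _ (hQreg i a))
        (ffp_mem_of_ord_nonneg _ (by rw [hw i]))]
    have hc := eq_zero_of_vecMul hdet
      (c := fun i => gam i * valF 𝔻.Hk (Q i) (𝔻.red (c i) (ε i))) (fun a => by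
        have h1 := hgam a
        simp only [hval] at h1
        rw [← h1]
        refine Finset.sum_congr rfl fun i _ => ?_
        rw [Matrix.of_apply]
        ring)
    funext i
    have h2 := congrFun hc i
    simp only [Pi.zero_apply] at h2
    rcases mul_eq_zero.mp h2 with h3 | h3
    · exact h3
    · exact absurd h3 (hw0 i)

/-- The (empty) input in genus zero. -/
def nsInputNZero : NSInputN 𝔻 0 where
  c := Fin.elim0
  Q := Fin.elim0
  P := Fin.elim0
  u := fun i => i.elim0
  hu := fun i => i.elim0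
  hinj := fun i => i.elim0
  om := Fin.elim0
  hreg := fun a => a.elim0
  hint := fun a => a.elim0
  psi := fun a => a.elim0
  hpsi := fun a => a.elim0
  nondeg := fun _ _ => funext fun i => i.elim0

/-- **Existence of the input of (NS) on a semistable datum**, with centres reducing to smooth points
outside a given finite set. -/
theorem exists_nsInputN (hx : IsGen L x) [Infinite k] [Finite ι] [Nonempty ι] [Finite E]
    (hlink : DLink 𝔻) (Bad : Set (ι × Place k Ft)) (hBad : Bad.Finite) :
    ∃ I : NSInputN 𝔻 (genus L F), ∀ i, (I.c i, I.Q i) ∉ Bad := by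
  generalize hg : genus L F = g
  cases g with
  | zero => exact ⟨nsInputNZero 𝔻, fun i => i.elim0⟩
  | succ n => exact exists_nsInputN_succ 𝔻 hx hlink Bad hBad n hg

end

end Fermat.Agent.ORD.NSN.NSExistsN9
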