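/-
PROGRAMME ORD (S33), chapter NSN (helper9).  `NSFinalN9` = THE OUTPUT OF CHAPTER NSN in the form
consumed by KERN / FAMN / GLUEN / INSTN: ANY NUMBER OF NON-SPECIAL SYSTEMS
`KerDefs9.NSSystemN 𝔻 (genus L F)` WITH PAIRWISE DISTINCT SMOOTH DISCS off a given finite set `Bad` of
points of the components, and a common auxiliary smooth point `(c0, Q0)` off `Bad` and off all the
centres (nodal version of `FF/NS/NSThree9`, `NSFinal5`).

The non-speciality of the inputs is taken as the hypothesis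
`hns : ∀ I : NSInputN 𝔻 (genus L F), I.IsNonSpecial` (= `NonSpecialN2.nonspecialN hx hlift hconn`,
helper2: residue comparison from (LIFT) and (CONN)).

* `exists_nsInputsN n Bad` : `n` inputs of (NS) whose centres reduce outside `Bad` and into pairwise
  distinct smooth discs (also across different systems);
* `exists_nsSystemsN n Bad` : the same for `NSSystemN`, with a common auxiliary smooth point;
* `exists_nsSystemN`, `exists_three_nsSystemsN` : the cases `n = 1`, `n = 3`.
-/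
import Mathlib
import Fermat.Agent.ORD.NSN.NSExistsN9

set_option autoImplicit false
set_option linter.unusedSectionVars false
set_option linter.style.longLine false
set_option linter.style.haveILetI false

namespace Fermat.Agent.ORD.NSN.NSFinalN9

open AlgebraicCurve KaehlerDifferential Fermat.Agent.X0.FF Fermat.Agent.RR.LSpace
  Fermat.Agent.MW.EMB.Value6
open Fermat.Agent.ORD.SEMIRED.SemiRedDatum9 Fermat.Agent.ORD.KERN.KerDefs9
  Fermat.Agent.ORD.NSN.NSInputN9 Fermat.Agent.ORD.NSN.OrthN9 Fermat.Agent.ORD.NSN.NSExistsN9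

noncomputable section

variable {L F k Ft : Type*} [Field L] [Field F] [Algebra L F] [Field k] [Field Ft] [Algebra k Ft]
variable [IsAlgClosed L] [CharZero L] {x : F}
variable {ι E : Type*} {𝔻 : SemiRedDatum L F k Ft ι E}
variable [HasCanonicalDivisor (K := L) (F := F)] [Infinite k] [Finite ι] [Nonempty ι] [Finite E]

/-- `n` inputs of (NS) with pairwise distinct smooth discs, off `Bad`. -/
theorem exists_nsInputsN (hx : IsGen L x) (hlink : DLink 𝔻) (Bad : Set (ι × Place k Ft))
    (hBad : Bad.Finite) (n : ℕ) :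
    ∃ S : Fin n → NSInputN 𝔻 (genus L F), (∀ a i, ((S a).c i, (S a).Q i) ∉ Bad) ∧
      ∀ a b, a ≠ b → ∀ i j, ((S a).c i, (S a).Q i) ≠ ((S b).c j, (S b).Q j) := by
  classical
  induction n with
  | zero => exact ⟨Fin.elim0, fun a => a.elim0, fun a => a.elim0⟩
  | succ n ih =>
    obtain ⟨S, hB, hdis⟩ := ih
    let cen : Set (ι × Place k Ft) :=
      ⋃ a : Fin n, Set.range fun i => ((S a).c i, (S a).Q i)
    have hcen : cen.Finite := Set.finite_iUnion fun a => Set.finite_range _
    obtain ⟨I, hI⟩ := exists_nsInputN 𝔻 hx hlink (Bad ∪ cen) (hBad.union hcen)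
    have hIBad : ∀ i, (I.c i, I.Q i) ∉ Bad := fun i h => hI i (Or.inl h)
    have hIcen : ∀ i a j, (I.c i, I.Q i) ≠ ((S a).c j, (S a).Q j) := by
      intro i a j h
      apply hI i
      right
      exact Set.mem_iUnion.mpr ⟨a, j, h.symm⟩
    refine ⟨Fin.cons I S, ?_, ?_⟩
    · intro a
      refine Fin.cases ?_ (fun a' => ?_) a
      · simpa using hIBad
      · simpa using hB a'
    · intro a b
      refine Fin.cases ?_ (fun a' => ?_) a <;> refine Fin.cases ?_ (fun b' => ?_) b
      · intro h; exact absurd rfl h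
      · intro _ i j
        simpa using hIcen i b' j
      · intro _ i j
        simpa using (hIcen j a' i).symm
      · intro h i j
        have h' : a' ≠ b' := fun e => h (by rw [e])
        simpa using hdis a' b' h' i j

/-- **(R2) on a semistable datum**: `n` non-special systems with pairwise distinct smooth discs off
`Bad`, and a common auxiliary smooth point `(c0, Q0)` off `Bad` and off all the centres. -/
theorem exists_nsSystemsN (hx : IsGen L x) (hlink : DLink 𝔻)
    (hns : ∀ I : NSInputN 𝔻 (genus L F), I.IsNonSpecial) (Bad : Set (ι × Place k Ft))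
    (hBad : Bad.Finite) (n : ℕ) :
    ∃ (S : Fin n → NSSystemN 𝔻 (genus L F)) (c0 : ι) (Q0 : Place k Ft), (c0, Q0) ∉ Bad ∧
      (∀ a, (S a).c0 = c0 ∧ (S a).Q0 = Q0) ∧
      (∀ a i, ((S a).c i, (S a).Q i) ∉ Bad) ∧
      (∀ a b i j, ((S a).c i, (S a).Q i) = ((S b).c j, (S b).Q j) → a = b ∧ i = j) ∧
      (∀ a i, ((S a).c i, (S a).Q i) ≠ (c0, Q0)) := by
  classical
  haveI := infinite_place_of_lhyp 𝔻.Hk
  obtain ⟨S, hB, hdis⟩ := exists_nsInputsN hx hlink Bad hBad n
  obtain ⟨c0⟩ := ‹Nonempty ι›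
  let cen : Set (ι × Place k Ft) :=
    ⋃ a : Fin n, Set.range fun i => ((S a).c i, (S a).Q i)
  have hcen : cen.Finite := Set.finite_iUnion fun a => Set.finite_range _
  have hfin : ({Q : Place k Ft | (c0, Q) ∈ Bad ∪ cen} ∪ {Q : Place k Ft | 𝔻.IsBranch c0 Q}).Finite :=
    (Fermat.Agent.ORD.NSN.GenPosN9.finite_preimage_mk c0 (hBad.union hcen)).union
      (finite_isBranch 𝔻 c0)
  obtain ⟨Q0, hQ0⟩ := hfin.infinite_compl.nonempty
  simp only [Set.mem_compl_iff, Set.mem_union, Set.mem_setOf_eq, not_or] at hQ0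
  obtain ⟨⟨hQ0B, hQ0c⟩, hQ0sm⟩ := hQ0
  have hQ0cen : ∀ a i, ((S a).c i, (S a).Q i) ≠ (c0, Q0) := by
    intro a i h
    apply hQ0c
    exact Set.mem_iUnion.mpr ⟨a, i, h⟩
  refine ⟨fun a => (S a).toNSSystemN (hns (S a)) c0 Q0 hQ0sm (hQ0cen a), c0, Q0, hQ0B,
    fun a => ⟨rfl, rfl⟩, fun a i => hB a i, ?_, fun a i => hQ0cen a i⟩
  intro a b i j h
  by_cases hab : a = b
  · subst hab
    exact ⟨rfl, (S a).hinj h⟩
  · exact absurd h (hdis a b hab i j)

/-- **(NS) on a semistable datum**: a non-special system of `genus L F` centres, all discs (and the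
auxiliary smooth point) outside a given finite set. -/
theorem exists_nsSystemN (hx : IsGen L x) (hlink : DLink 𝔻)
    (hns : ∀ I : NSInputN 𝔻 (genus L F), I.IsNonSpecial) (Bad : Set (ι × Place k Ft))
    (hBad : Bad.Finite) :
    ∃ S : NSSystemN 𝔻 (genus L F), (∀ i, (S.c i, S.Q i) ∉ Bad) ∧ (S.c0, S.Q0) ∉ Bad := by
  obtain ⟨S, c0, Q0, h0, hS0, hB, -, -⟩ := exists_nsSystemsN hx hlink hns Bad hBad 1
  refine ⟨S 0, hB 0, ?_⟩
  rw [(hS0 0).1, (hS0 0).2]
  exact h0

/-- Three non-special systems with pairwise distinct discs, all outside a given finite set. -/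
theorem exists_three_nsSystemsN (hx : IsGen L x) (hlink : DLink 𝔻)
    (hns : ∀ I : NSInputN 𝔻 (genus L F), I.IsNonSpecial) (Bad : Set (ι × Place k Ft))
    (hBad : Bad.Finite) :
    ∃ S0 S1 S2 : NSSystemN 𝔻 (genus L F),
      (∀ i, (S0.c i, S0.Q i) ∉ Bad) ∧ (∀ i, (S1.c i, S1.Q i) ∉ Bad) ∧
      (∀ i, (S2.c i, S2.Q i) ∉ Bad) ∧
      (∀ i j, (S0.c i, S0.Q i) ≠ (S1.c j, S1.Q j)) ∧ (∀ i j, (S0.c i, S0.Q i) ≠ (S2.c j, S2.Q j)) ∧
      (∀ i j, (S1.c i, S1.Q i) ≠ (S2.c j, S2.Q j)) := by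
  obtain ⟨S, c0, Q0, -, -, hB, hdis, -⟩ := exists_nsSystemsN hx hlink hns Bad hBad 3
  refine ⟨S 0, S 1, S 2, hB 0, hB 1, hB 2, ?_, ?_, ?_⟩
  · intro i j h
    exact absurd (hdis 0 1 i j h).1 (by decide)
  · intro i j h
    exact absurd (hdis 0 2 i j h).1 (by decide)
  · intro i j h
    exact absurd (hdis 1 2 i j h).1 (by decide)

end

end Fermat.Agent.ORD.NSN.NSFinalN9
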