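/-
PROGRAMME ORD (S33), chapter NSN (helper2): `ResCompC2` = RESIDUE COMPARISON on one smooth residue disc
of one component — the port of `FF/NS/ResComp5` from `RedDatum` to helper9's `CompDatum`
(`D.r v = D.r P` becomes `D.r v = some Q`).

`D : CompDatum L F k Ft`, `u` a good uniformizer centred at `P` in the disc of the smooth point `Q`,
`t = D.red u`.  For `f, ψ` in the Gauss ring, `ψ` without poles on the disc `U(Q)`, and a finite set
`Pol` of places containing the poles of `f` on the disc:

  `∑_{v ∈ Pol, r v = some Q} res_v (f ψ du) = c ∈ A`   and   `res c = (t · red f · red ψ)(Q)`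

(`disc_residue_sum`), provided `t · red f · red ψ` is regular at `Q`.

The Taylor coefficients (`stepk`, `tck`, `tck_pow_mul`) and the Newton form (`ResNewton5`) are generic
and imported as they are.  The Gauss-ring inverses (`invC`, `divC`) are the `CompDatum` copies of
`FF/RED/Gauss7`.
-/
import Mathlib
import Fermat.Agent.FF.NS.ResComp5
import Fermat.Agent.ORD.REDN.DiscC9

set_option autoImplicit false
set_option linter.unusedSectionVars false
set_option linter.style.longLine false

namespace Fermat.Agent.ORD.NSN.ResCompC2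

open AlgebraicCurve
open Fermat.Agent.X0.FF Fermat.Agent.RR.LSpace Fermat.Agent.MW.EMB.Value6
open Fermat.Agent.RR.LocalResMain
open Fermat.Agent.ORD.SEMIRED.SemiRedDatum9 Fermat.Agent.ORD.REDN.DiscC9
open Fermat.Agent.FF.RED.Gauss7 (not_isUnit_inv_of_not_mem inv_mem_of_isUnit)
open Fermat.Agent.FF.NS.ResNewton5
open Fermat.Agent.FF.NS.ResComp5 (stepk tck tck_pow_mul)

noncomputable section

variable {L F k Ft : Type*} [Field L] [Field F] [Algebra L F] [Field k] [Field Ft] [Algebra k Ft]

/-! ### the Gauss ring of a component is a valuation ring (copy of `FF/RED/Gauss7`) -/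

section Gauss

variable (D : CompDatum L F k Ft)

theorem isUnit_of_res_ne_zero {a : D.A} (ha : D.res a ≠ 0) : IsUnit a := by
  by_contra h
  exact ha ((D.res_eq_zero_iff a).mpr h)

/-- `G ∩ L = A`. -/
theorem mem_A_of_const_mem {c : L} (h : algebraMap L F c ∈ D.G) : c ∈ D.A := by
  by_contra hc
  have hinv : c⁻¹ ∈ D.A := (D.A.mem_or_inv_mem c).resolve_left hc
  have hc0 : c ≠ 0 := fun h0 => hc (h0 ▸ D.A.zero_mem)
  have hnu := not_isUnit_inv_of_not_mem D.A hc hinv
  have h1 : (1 : D.G) = D.const ⟨c⁻¹, hinv⟩ * ⟨algebraMap L F c, h⟩ := by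
    apply Subtype.ext
    show (1 : F) = algebraMap L F c⁻¹ * algebraMap L F c
    rw [← map_mul, inv_mul_cancel₀ hc0, map_one]
  have h2 := congrArg D.red h1
  rw [map_one, map_mul, D.red_const', D.res_eq_zero_of_mem_maximalIdeal hnu, map_zero,
    zero_mul] at h2
  exact one_ne_zero h2

/-- integral functions with nonzero reduction are units of the Gauss ring. -/
theorem inv_mem {g : D.G} (hg : D.red g ≠ 0) : (g : F)⁻¹ ∈ D.G := by
  have hg0 : (g : F) ≠ 0 := D.coe_ne_zero_of_red_ne_zero hg
  obtain ⟨c, hc0, g', hg', hred'⟩ := D.norm (g : F)⁻¹ (inv_ne_zero hg0)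
  have hprod : (g' : F) * (g : F) = algebraMap L F c := by
    rw [hg', mul_assoc, inv_mul_cancel₀ hg0, mul_one]
  have hcG : algebraMap L F c ∈ D.G := hprod ▸ (g' * g).2
  have hcA : c ∈ D.A := mem_A_of_const_mem D hcG
  have hres : D.res ⟨c, hcA⟩ ≠ 0 := by
    intro h0
    have h1 : D.const ⟨c, hcA⟩ = g' * g := Subtype.ext hprod.symm
    have h2 := congrArg D.red h1
    rw [D.red_const', h0, map_zero, map_mul] at h2
    exact mul_ne_zero hred' hg h2.symm
  have hu : IsUnit (⟨c, hcA⟩ : D.A) := isUnit_of_res_ne_zero D hres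
  have hcinv : c⁻¹ ∈ D.A := inv_mem_of_isUnit D.A hu
  have : (g : F)⁻¹ = algebraMap L F c⁻¹ * (g' : F) := by
    rw [hg', ← mul_assoc, ← map_mul, inv_mul_cancel₀ hc0, map_one, one_mul]
  rw [this]
  exact D.G.mul_mem (D.const_mem ⟨c⁻¹, hcinv⟩) g'.2

/-- The inverse of an integral function with nonzero reduction, in the Gauss ring. -/
def invC (g : D.G) (hg : D.red g ≠ 0) : D.G := ⟨(g : F)⁻¹, inv_mem D hg⟩

@[simp] theorem coe_invC (g : D.G) (hg : D.red g ≠ 0) : ((invC D g hg : D.G) : F) = (g : F)⁻¹ := rfl

theorem mul_invC (g : D.G) (hg : D.red g ≠ 0) : g * invC D g hg = 1 :=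
  Subtype.ext (mul_inv_cancel₀ (D.coe_ne_zero_of_red_ne_zero hg))

theorem red_invC (g : D.G) (hg : D.red g ≠ 0) : D.red (invC D g hg) = (D.red g)⁻¹ := by
  have h := congrArg D.red (mul_invC D g hg)
  rw [map_mul, map_one] at h
  exact eq_inv_of_mul_eq_one_right h

/-- quotients with nonzero-reduction denominators. -/
def divC (y z : D.G) (hz : D.red z ≠ 0) : D.G := y * invC D z hz

@[simp] theorem coe_divC (y z : D.G) (hz : D.red z ≠ 0) :
    ((divC D y z hz : D.G) : F) = (y : F) / (z : F) := by
  show (y : F) * (z : F)⁻¹ = _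
  rw [div_eq_mul_inv]

theorem red_divC (y z : D.G) (hz : D.red z ≠ 0) :
    D.red (divC D y z hz) = D.red y / D.red z := by
  rw [divC, map_mul, red_invC, div_eq_mul_inv]

end Gauss

variable {D : CompDatum L F k Ft} {P : Place L F} {Q : Place k Ft} {u : D.G}

/-! ### the disc hypotheses of `ResNewton5` -/

/-- the coordinate function of the disc: `v ↦ u(v)`. -/
def coord (D : CompDatum L F k Ft) (u : D.G) : Place L F → L := fun v => valF D.HL v (u : F)

theorem discHyp (hu : D.IsGoodUnif P Q u) (S : Finset (Place L F))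
    (hS : ∀ v ∈ S, D.r v = some Q) : DiscHyp (u : F) S (coord D u) where
  unif := fun v hv => hu.ord_sub_valF (hS v hv)
  inj := fun v hv v' hv' h => hu.eq_of_valF_eq (hS v hv) (hS v' hv') h

/-! ### one divided difference in the Gauss ring -/

section Step

variable (hu : D.IsGoodUnif P Q u)
include hu

/-- the linear factor `u - u(v)` in the Gauss ring. -/
def lin {v : Place L F} (hv : D.r v = some Q) : D.G := u - D.const (valA D u hu.poleFree hv)

theorem coe_lin {v : Place L F} (hv : D.r v = some Q) :
    ((lin hu hv : D.G) : F) = (u : F) - algebraMap L F (coord D u v) := rfl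

theorem red_lin {v : Place L F} (hv : D.r v = some Q) : D.red (lin hu hv) = D.red u :=
  CompDatum.red_sub_const' u (hu.valA_not_isUnit hv)

theorem red_lin_ne_zero {v : Place L F} (hv : D.r v = some Q) : D.red (lin hu hv) ≠ 0 := by
  rw [red_lin]; exact hu.red_ne_zero

/-- the divided difference of `e` at `v`, in the Gauss ring. -/
def stepG {v : Place L F} (hv : D.r v = some Q) (e : D.G) (he : D.PoleFree (e : F) Q) : D.G :=
  divC D (e - D.const (valA D e he hv)) (lin hu hv) (red_lin_ne_zero hu hv)

theorem coe_stepG {v : Place L F} (hv : D.r v = some Q) (e : D.G)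
    (he : D.PoleFree (e : F) Q) :
    ((stepG hu hv e he : D.G) : F) = step D.HL (u : F) (coord D u) v (e : F) := by
  rw [stepG, coe_divC]
  rfl

theorem red_stepG {v : Place L F} (hv : D.r v = some Q) (e : D.G)
    (he : D.PoleFree (e : F) Q) :
    D.red (stepG hu hv e he) = stepk D.Hk Q (D.red u) (D.red e) := by
  rw [stepG, red_divC, map_sub, D.red_const', res_valF D e he hv, red_lin, stepk]

theorem poleFree_stepG {v : Place L F} (hv : D.r v = some Q) (e : D.G)
    (he : D.PoleFree (e : F) Q) :
    D.PoleFree ((stepG hu hv e he : D.G) : F) Q := by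
  classical
  intro v' hv'
  rw [coe_stepG]
  have hS : ∀ w ∈ ({v, v'} : Finset (Place L F)), D.r w = some Q := by
    intro w hw
    rw [Finset.mem_insert, Finset.mem_singleton] at hw
    rcases hw with rfl | rfl
    · exact hv
    · exact hv'
  exact ord_step_nonneg D.HL (discHyp hu _ hS) (Finset.mem_insert_self v _)
    (fun w hw => he w (hS w hw)) v' (Finset.mem_insert_of_mem (Finset.mem_singleton_self v'))

/-- **The last Newton coefficient is integral and reduces to a Taylor coefficient.** -/
theorem lastCoef_red : ∀ σ : List (Place L F), σ ≠ [] → (∀ v ∈ σ, D.r v = some Q) →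
    ∀ (e : D.G), D.PoleFree (e : F) Q →
      ∃ c : D.A, (c : L) = lastCoef D.HL (u : F) (coord D u) σ (e : F) ∧
        D.res c = tck D.Hk Q (D.red u) (σ.length - 1) (D.red e) := by
  intro σ
  induction σ with
  | nil => intro hne; exact absurd rfl hne
  | cons v σ ih =>
    intro _ hσ e he
    have hv : D.r v = some Q := hσ v List.mem_cons_self
    cases σ with
    | nil =>
      refine ⟨valA D e he hv, rfl, ?_⟩
      rw [res_valF D e he hv]
      rfl
    | cons v' σ =>
      have hσ' : ∀ w ∈ v' :: σ, D.r w = some Q := fun w hw => hσ w (List.mem_cons_of_mem v hw)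
      obtain ⟨c, hc, hres⟩ := ih (List.cons_ne_nil _ _) hσ' (stepG hu hv e he)
        (poleFree_stepG hu hv e he)
      refine ⟨c, ?_, ?_⟩
      · rw [hc, coe_stepG, lastCoef_cons_cons]
      · rw [hres, red_stepG]
        rfl

end Step

/-! ### the denominator `(∏_{v ∈ S} (u - u(v)))^N` -/

section Denominator

open Classical in
/-- the linear factor for an arbitrary place (`u` itself off the disc). -/
def linT (hu : D.IsGoodUnif P Q u) (v : Place L F) : D.G :=
  if hv : D.r v = some Q then lin hu hv else u

theorem linT_of_mem (hu : D.IsGoodUnif P Q u) {v : Place L F} (hv : D.r v = some Q) :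
    linT hu v = lin hu hv := by
  classical
  rw [linT, dif_pos hv]

/-- the denominator, in the Gauss ring. -/
def denG (hu : D.IsGoodUnif P Q u) (S : Finset (Place L F)) (N : ℕ) : D.G :=
  (∏ v ∈ S, linT hu v) ^ N

theorem coe_denG (hu : D.IsGoodUnif P Q u) (S : Finset (Place L F)) (N : ℕ)
    (hS : ∀ v ∈ S, D.r v = some Q) :
    ((denG hu S N : D.G) : F) = pr (u : F) (coord D u) (N • S.val) := by
  rw [pr, Multiset.map_nsmul, Multiset.prod_nsmul, denG]
  show (((∏ v ∈ S, linT hu v : D.G) : F)) ^ N = _
  congr 1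
  rw [← D.G.subtype_apply, map_prod]
  show ∏ v ∈ S, ((linT hu v : D.G) : F) = _
  rw [Finset.prod_eq_multiset_prod]
  congr 1
  apply Multiset.map_congr rfl
  intro v hv
  rw [linT_of_mem hu (hS v (Finset.mem_val.mp hv)), coe_lin]

theorem red_denG (hu : D.IsGoodUnif P Q u) (S : Finset (Place L F)) (N : ℕ)
    (hS : ∀ v ∈ S, D.r v = some Q) :
    D.red (denG hu S N) = D.red u ^ (S.card * N) := by
  rw [denG, map_pow, map_prod, pow_mul]
  congr 1
  rw [Finset.prod_congr rfl (fun v hv => by rw [linT_of_mem hu (hS v hv), red_lin]),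
    Finset.prod_const]

open Classical in
/-- the order of the denominator at a place of the disc. -/
theorem ord_pr_nsmul (hu : D.IsGoodUnif P Q u) (S : Finset (Place L F)) (N : ℕ)
    (hS : ∀ v ∈ S, D.r v = some Q) {v : Place L F} (hv : D.r v = some Q) :
    v.ord (pr (u : F) (coord D u) (N • S.val)) = if v ∈ S then (N : ℤ) else 0 := by
  classical
  have hS' : ∀ w ∈ insert v S, D.r w = some Q := by
    intro w hw
    rcases Finset.mem_insert.mp hw with rfl | hw
    · exact hv
    · exact hS w hw
  have hD := discHyp hu (insert v S) hS'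
  have hpow : pr (u : F) (coord D u) (N • S.val) = pr (u : F) (coord D u) S.val ^ N := by
    rw [pr, pr, Multiset.map_nsmul, Multiset.prod_nsmul]
  have hbase : v.ord (pr (u : F) (coord D u) S.val) = if v ∈ S then 1 else 0 := by
    by_cases hvS : v ∈ S
    · rw [if_pos hvS]
      have hval : S.val = v ::ₘ (S.erase v).val := by
        rw [Finset.erase_val]
        exact (Multiset.cons_erase (Finset.mem_val.mpr hvS)).symm
      have hE : ∀ w ∈ (S.erase v).val, w ∈ insert v S := fun w hw =>
        Finset.mem_insert_of_mem (Finset.mem_of_mem_erase (Finset.mem_val.mp hw))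
      rw [hval, pr_cons, v.ord_mul (hD.sub_ne_zero (Finset.mem_insert_self v S))
        (pr_ne_zero hD hE), hD.unif v (Finset.mem_insert_self v S),
        ord_pr_of_not_mem hD hE (Finset.mem_insert_self v S)
          (fun hm => Finset.notMem_erase v S (Finset.mem_val.mp hm)), add_zero]
    · rw [if_neg hvS]
      exact ord_pr_of_not_mem hD (fun w hw => Finset.mem_insert_of_mem (Finset.mem_val.mp hw))
        (Finset.mem_insert_self v S) (fun hm => hvS (Finset.mem_val.mp hm))
  rw [hpow, ← zpow_natCast, v.ord_zpow, hbase]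
  split_ifs <;> simp

end Denominator

/-! ### the residue sum over one disc -/

section Disc

variable [IsAlgClosed L] [CharZero L] {x : F} (hx : IsGen L x)

open Classical in
/-- **RESIDUE COMPARISON on one smooth disc.**  `f, ψ` integral, `ψ` pole-free on the disc of `Q`,
`Pol` a finite set containing the poles of `f` on the disc, `t · red f · red ψ` regular at `Q`
(`t = red u`).  Then the sum of the residues of `f ψ du` over the places of `Pol` in the disc is an
element `c` of `A`, and `res c` is the value of `t · red f · red ψ` at `Q`. -/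
theorem disc_residue_sum (hu : D.IsGoodUnif P Q u) (f ψ : D.G)
    (hψ : D.PoleFree (ψ : F) Q) (Pol : Finset (Place L F))
    (hPol : ∀ v : Place L F, D.r v = some Q → v.ord (f : F) < 0 → v ∈ Pol)
    (hreg : 0 ≤ Q.ord (D.red u * (D.red f * D.red ψ))) :
    ∃ c : D.A,
      ∑ v ∈ Pol.filter (fun v => D.r v = some Q),
          residue hx v (((f : F) * (ψ : F)) • KaehlerDifferential.D L F (u : F)) = (c : L) ∧
        D.res c = valF D.Hk Q (D.red u * (D.red f * D.red ψ)) := by
  have hPQ : D.r P = some Q := hu.r_eq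
  -- the finite set of places and the multiplicity
  set S : Finset (Place L F) := insert P (Pol.filter fun v => D.r v = some Q) with hSdef
  have hS : ∀ v ∈ S, D.r v = some Q := by
    intro v hv
    rcases Finset.mem_insert.mp hv with rfl | hv
    · exact hPQ
    · exact (Finset.mem_filter.mp hv).2
  set N : ℕ := 1 + ∑ v ∈ S, (v.ord (f : F)).natAbs with hNdef
  have hN : ∀ v ∈ S, -v.ord (f : F) ≤ (N : ℤ) := by
    intro v hv
    have h1 : (v.ord (f : F)).natAbs ≤ ∑ w ∈ S, (w.ord (f : F)).natAbs :=
      Finset.single_le_sum (f := fun w : Place L F => (w.ord (f : F)).natAbs)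
        (fun _ _ => Nat.zero_le _) hv
    have h2 : -v.ord (f : F) ≤ ((v.ord (f : F)).natAbs : ℤ) := by
      rw [← Int.abs_eq_natAbs]; exact neg_le_abs _
    have h3 : (v.ord (f : F)).natAbs ≤ N := by
      rw [hNdef]; omega
    have h4 : ((v.ord (f : F)).natAbs : ℤ) ≤ (N : ℤ) := by exact_mod_cast h3
    omega
  have hD := discHyp hu S hS
  set σm : Multiset (Place L F) := N • S.val with hσm
  have hσmS : ∀ v ∈ σm, v ∈ S := by
    intro v hv
    rw [hσm] at hv
    exact Finset.mem_val.mp (Multiset.mem_of_mem_nsmul hv)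
  have hcard : σm.card = S.card * N := by
    rw [hσm, Multiset.card_nsmul, Finset.card_val, mul_comm]
  have hSpos : 0 < S.card := Finset.card_pos.mpr ⟨P, Finset.mem_insert_self _ _⟩
  have hNpos : 0 < N := by rw [hNdef]; omega
  have hn : 0 < S.card * N := Nat.mul_pos hSpos hNpos
  set σ : List (Place L F) := σm.toList with hσ
  have hσcoe : (σ : Multiset (Place L F)) = σm := Multiset.coe_toList σm
  have hσne : σ ≠ [] := by
    intro h0
    have : σm.card = 0 := by rw [← hσcoe, h0]; rfl
    omega
  have hσS : ∀ v ∈ σ, v ∈ S := fun v hv => hσmS v (by rw [← hσcoe]; exact Multiset.mem_coe.mpr hv)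
  have hσlen : σ.length = S.card * N := by rw [hσ, Multiset.length_toList, hcard]
  -- the numerator
  set p : D.G := denG hu S N with hp
  have hpcoe : (p : F) = pr (u : F) (coord D u) σm := coe_denG hu S N hS
  have hp0 : (p : F) ≠ 0 := by rw [hpcoe]; exact pr_ne_zero hD hσmS
  set e₀ : D.G := p * (f * ψ) with he₀
  have he₀coe : (e₀ : F) = (p : F) * ((f : F) * (ψ : F)) := rfl
  -- `p f` has no poles on the disc
  have hpf : D.PoleFree ((p : F) * (f : F)) Q := by
    intro v hv
    rcases eq_or_ne (f : F) 0 with hf0 | hf0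
    · rw [hf0, mul_zero, Place.ord_zero]
    rw [v.ord_mul hp0 hf0, hpcoe, hσm, ord_pr_nsmul hu S N hS hv]
    by_cases hvS : v ∈ S
    · rw [if_pos hvS]
      have := hN v hvS
      omega
    · rw [if_neg hvS, zero_add]
      by_contra hneg
      apply hvS
      exact Finset.mem_insert_of_mem (Finset.mem_filter.mpr ⟨hPol v hv (not_le.mp hneg), hv⟩)
  have he₀pf : D.PoleFree (e₀ : F) Q := by
    rw [he₀coe, ← mul_assoc]
    exact poleFree_mul D hpf hψ
  -- Newton form
  have hnewton := sum_residue_newton D.HL hx hD σ hσne hσS (e₀ : F)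
    (fun v hv => he₀pf v (hS v hv))
  obtain ⟨c, hc, hres⟩ := lastCoef_red hu σ hσne (fun v hv => hS v (hσS v hv)) e₀ he₀pf
  refine ⟨c, ?_, ?_⟩
  · rw [hc, ← hnewton, hσcoe]
    have hterm : ∀ v ∈ S, residue hx v (((f : F) * (ψ : F)) • KaehlerDifferential.D L F (u : F)) =
        residue hx v (((e₀ : F) / pr (u : F) (coord D u) σm) •
          KaehlerDifferential.D L F (u : F)) := by
      intro v _
      rw [he₀coe, ← hpcoe, mul_div_cancel_left₀ _ hp0]
    rw [← Finset.sum_congr rfl hterm]
    by_cases hPmem : P ∈ Pol.filter fun v => D.r v = some Q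
    · rw [hSdef, Finset.insert_eq_of_mem hPmem]
    · rw [hSdef, Finset.sum_insert hPmem]
      have hfP : 0 ≤ P.ord (f : F) := by
        by_contra hneg
        exact hPmem (Finset.mem_filter.mpr ⟨hPol P hPQ (not_le.mp hneg), hPQ⟩)
      have hfψ : 0 ≤ P.ord ((f : F) * (ψ : F)) := by
        rcases eq_or_ne (f : F) 0 with h0 | h0
        · rw [h0, zero_mul, Place.ord_zero]
        rcases eq_or_ne (ψ : F) 0 with h1 | h1
        · rw [h1, mul_zero, Place.ord_zero]
        rw [P.ord_mul h0 h1]
        have := hψ P hPQ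
        omega
      rw [residue_smul_D_of_nonneg hx P hfψ (hu.poleFree P hPQ), zero_add]
  · rw [hres, hσlen]
    have hred : D.red e₀ = D.red u ^ (S.card * N - 1) * (D.red u * (D.red f * D.red ψ)) := by
      rw [he₀, map_mul, map_mul, hp, red_denG hu S N hS]
      have hpow : D.red u ^ (S.card * N) = D.red u ^ (S.card * N - 1) * D.red u := by
        rw [← pow_succ, Nat.sub_add_cancel hn]
      rw [hpow, mul_assoc]
    rw [hred]
    exact tck_pow_mul D.Hk Q hu.ord_red hreg _

end Disc

end

end Fermat.Agent.ORD.NSN.ResCompC2
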