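/-
PROGRAMME ORD (S33), chapter NSN (helper2): `NonSpecialN2` = the global assembly of (NS) on a
semistable datum (nodal version of `FF/NS/NonSpecial5`).

`𝔻 : SemiRedDatum L F k Ft ι E`, `L` algebraically closed of characteristic zero, `hx : IsGen L x`.
From an `NSInputN 𝔻 g` (helper9's `NSInputN9`: centres in pairwise distinct smooth discs with good
uniformizers, regular differentials integral on every smooth residue disc, nondegenerate value matrix)
and the two global hypotheses `LiftsMatched 𝔻` (LIFT) and `GraphConn 𝔻` (CONN) we prove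

  `nonspecialN` : `I.IsNonSpecial`,

i.e. every section `(f v)` of `O(∑ (c i, Q i))` on the NODAL curve (tuple form: zero components allowed,
regular and matched at the nodes) is a constant tuple.  Proof by residue comparison: lift the tuple to
`y` integral on every component and without poles on the annuli; the residue theorem of `F / L` for
`y · om a`, grouped by the fibres of `𝔻.r` (the annuli contribute `0`, the smooth discs contribute
through `ResCompC2.disc_residue_sum`), reduces to `∑_i (t_i f)(Q i) · (red ψ_{a,i})(Q i) = 0` for all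
`a`; nondegeneracy kills the polar parts; regular functions are constant component by component, and
the matching at the nodes together with the connectedness of the graph gives ONE constant.
-/
import Mathlib
import Fermat.Agent.RR.ResidueGlob
import Fermat.Agent.FF.NS.GenPos9
import Fermat.Agent.FF.NS.NonSpecial5
import Fermat.Agent.ORD.NSN.NSInputN9
import Fermat.Agent.ORD.NSN.ResCompC2

set_option autoImplicit false
set_option linter.unusedSectionVars false
set_option linter.style.longLine false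
set_option linter.style.haveILetI false

namespace Fermat.Agent.ORD.NSN.NonSpecialN2

open AlgebraicCurve
open Fermat.Agent.X0.FF Fermat.Agent.RR.LSpace Fermat.Agent.MW.EMB.Value6
open Fermat.Agent.RR.LocalResMain
open Fermat.Agent.ORD.ANN.SemiRed3
open Fermat.Agent.ORD.SEMIRED.SemiRedDatum9 Fermat.Agent.ORD.SEMIRED.ToSemiRed9
open Fermat.Agent.ORD.REDN.DiscC9 Fermat.Agent.ORD.KERN.KerDefs9
open Fermat.Agent.FF.NS.ResNewton5
open Fermat.Agent.ORD.NSN.NSInputN9 Fermat.Agent.ORD.NSN.ResCompC2
open Fermat.Agent.FF.NS.NonSpecial5 (D_ne_zero_of_ord_ne_zero residue_smul_eq_zero)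

noncomputable section

variable {L F k Ft : Type*} [Field L] [Field F] [Algebra L F] [Field k] [Field Ft] [Algebra k Ft]
variable [IsAlgClosed L] [CharZero L] {x : F} (hx : IsGen L x)

include hx

/-! ### differentials on one component -/

/-- a regular differential has a pole-free coefficient with respect to a good uniformizer. -/
theorem poleFree_coeff {D : CompDatum L F k Ft} {P : Place L F} {Q : Place k Ft} {u : D.G}
    (hu : D.IsGoodUnif P Q u) {ω : Ω[F⁄L]} (hω : ∀ v : Place L F, 0 ≤ v.ordDifferential ω) {ψ : F}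
    (hψ : ω = ψ • KaehlerDifferential.D L F (u : F)) : D.PoleFree ψ Q := by
  intro v hv
  rcases eq_or_ne ψ 0 with rfl | hψ0
  · rw [Place.ord_zero]
  have hunif := hu.ord_sub_valF hv
  have hDu : KaehlerDifferential.D L F (u : F) =
      KaehlerDifferential.D L F ((u : F) - algebraMap L F (valF D.HL v (u : F))) :=
    (D_sub_const _ _).symm
  have hne : KaehlerDifferential.D L F (u : F) ≠ 0 := by
    rw [hDu]
    exact D_ne_zero_of_ord_ne_zero hx v (by rw [hunif]; exact one_ne_zero)
  have h1 := ordDifferential_smul' hx v hψ0 hne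
  have h2 : v.ordDifferential (KaehlerDifferential.D L F (u : F)) = 0 := by
    rw [hDu, ordDifferential_D_of_ord_ne_zero hx v (by rw [hunif]; exact one_ne_zero), hunif]
    norm_num
  have h3 := hω v
  rw [hψ, h1, h2, add_zero] at h3
  exact h3

variable {ι E : Type*} {𝔻 : SemiRedDatum L F k Ft ι E} {g : ℕ}

omit hx in
/-- the reduced divisor of the input at one of its centres. -/
theorem redDivOf_apply_Q (I : NSInputN 𝔻 g) (i : Fin g) :
    redDivOf (E := E) I.c I.Q (Sum.inl (I.c i, I.Q i)) = 1 := by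
  classical
  rw [redDivOf, Finsupp.finsetSum_apply, Finset.sum_eq_single i]
  · simp
  · intro j _ hji
    rw [Finsupp.single_apply, if_neg]
    intro h
    exact hji (I.hinj (Sum.inl.inj h))
  · intro h; exact absurd (Finset.mem_univ i) h

omit hx in
/-- the reduced divisor of the input off its centres. -/
theorem redDivOf_apply_of_ne (I : NSInputN 𝔻 g) {v : ι} {Q : Place k Ft}
    (h : ∀ i, (I.c i, I.Q i) ≠ (v, Q)) : redDivOf (E := E) I.c I.Q (Sum.inl (v, Q)) = 0 := by
  classical
  rw [redDivOf, Finsupp.finsetSum_apply]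
  refine Finset.sum_eq_zero fun i _ => ?_
  rw [Finsupp.single_apply, if_neg]
  intro hi
  exact h i (Sum.inl.inj hi)

omit hx in
/-- the centres are smooth points. -/
theorem isSm_Q (I : NSInputN 𝔻 g) (i : Fin g) : 𝔻.IsSm (I.c i) (I.Q i) :=
  (𝔻.comp_sm_iff).mp (I.hu i).sm

omit hx in
/-- the reduced divisor of the input is at most `1`. -/
theorem redDivOf_le_one (I : NSInputN 𝔻 g) (v : ι) (Q : Place k Ft) :
    redDivOf (E := E) I.c I.Q (Sum.inl (v, Q)) ≤ 1 := by
  by_cases h : ∃ i, (I.c i, I.Q i) = (v, Q)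
  · obtain ⟨i, hi⟩ := h
    have h1 := redDivOf_apply_Q (E := E) I i
    rw [hi] at h1
    rw [h1]
  · push Not at h
    rw [redDivOf_apply_of_ne I h]
    exact zero_le_one

/-! ### the main theorem -/

open Classical in
/-- **(NS) on the nodal curve, by residue comparison.** -/
theorem nonspecialN (hlift : LiftsMatched 𝔻) (hconn : GraphConn 𝔻) (I : NSInputN 𝔻 g) :
    I.IsNonSpecial := by
  intro s
  set ft : ι → Ft := s.f with hft
  -- orders of the components of the section
  have hpole : ∀ v, ft v ≠ 0 → ∀ Q : Place k Ft,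
      -(redDivOf (E := E) I.c I.Q (Sum.inl (v, Q))) ≤ Q.ord (ft v) := fun v hv Q => s.pole v hv Q
  have hord : ∀ v, ft v ≠ 0 → ∀ Q : Place k Ft, -1 ≤ Q.ord (ft v) := by
    intro v hv Q
    have h1 := hpole v hv Q
    have h2 := redDivOf_le_one (E := E) I v Q
    omega
  have hoff : ∀ v, ft v ≠ 0 → ∀ Q : Place k Ft, (∀ i, (I.c i, I.Q i) ≠ (v, Q)) →
      0 ≤ Q.ord (ft v) := by
    intro v hv Q hQ
    have h1 := hpole v hv Q
    rw [redDivOf_apply_of_ne I hQ, neg_zero] at h1
    exact h1
  have hsmooth_ne : ∀ {v : ι} {Q : Place k Ft}, 𝔻.IsBranch v Q → ∀ i, (I.c i, I.Q i) ≠ (v, Q) := by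
    intro v Q hb i hi
    have h1 := isSm_Q I i
    have hv : I.c i = v := congrArg Prod.fst hi
    have hQ : I.Q i = Q := congrArg Prod.snd hi
    rw [hv, hQ] at h1
    exact h1 hb
  have hbranch : ∀ {v : ι} {Q : Place k Ft}, 𝔻.IsBranch v Q → 0 ≤ Q.ord (ft v) := by
    intro v Q hb
    by_cases hv : ft v = 0
    · rw [hv, Place.ord_zero]
    · exact hoff v hv Q (hsmooth_ne hb)
  -- the lift
  obtain ⟨y, hy, hyred, hyann⟩ := hlift ft
    (fun e => hbranch (Or.inl ⟨e, rfl, rfl⟩)) (fun e => hbranch (Or.inr ⟨e, rfl, rfl⟩))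
    (fun e => s.matched e)
  -- the poles of the lift
  set Pol : Finset (Place L F) :=
    (Fermat.Agent.FF.NS.GenPos9.finite_ord_neg 𝔻.HL y).toFinset with hPoldef
  have hPol : ∀ v : Place L F, v.ord y < 0 → v ∈ Pol := fun v hv =>
    (Set.Finite.mem_toFinset _).mpr hv
  -- the given uniformizers
  have hordu : ∀ i, (I.Q i).ord (𝔻.red (I.c i) (I.u i)) = 1 := fun i => (I.hu i).ord_red
  have hneu : ∀ i, 𝔻.red (I.c i) (I.u i) ≠ 0 := fun i => (I.hu i).red_ne_zero
  -- the polar coefficients
  set gam : Fin g → k := fun i => valF 𝔻.Hk (I.Q i) (𝔻.red (I.c i) (I.u i) * ft (I.c i)) with hgam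
  -- the per-disc constants
  have hdisc : ∀ (v : ι) (Q : Place k Ft), 𝔻.IsSm v Q → ∀ a : Fin g, ∃ c : 𝔻.B.A,
      ∑ P ∈ Pol.filter (fun P => 𝔻.r P = Sum.inl (v, Q)), residue hx P (y • I.om a) = (c : L) ∧
      ((∀ i, (I.c i, I.Q i) ≠ (v, Q)) → 𝔻.B.res c = 0) ∧
      (∀ i, (I.c i, I.Q i) = (v, Q) →
        𝔻.B.res c = gam i * valF 𝔻.Hk (I.Q i) (𝔻.red (I.c i) (I.psi a i))) := by
    intro v Q hsm a
    -- the general computation for a chart of the disc
    have key : ∀ (P' : Place L F) (u' : 𝔻.G v) (ψ' : 𝔻.G v),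
        (𝔻.comp v).IsGoodUnif P' Q u' →
        I.om a = (ψ' : F) • KaehlerDifferential.D L F (u' : F) →
        ∃ c : 𝔻.B.A,
          ∑ P ∈ Pol.filter (fun P => 𝔻.r P = Sum.inl (v, Q)), residue hx P (y • I.om a) = (c : L) ∧
          𝔻.B.res c = valF 𝔻.Hk Q (𝔻.red v u' * (ft v * 𝔻.red v ψ')) ∧
          (𝔻.red v ψ' ≠ 0 → 0 ≤ Q.ord (𝔻.red v ψ')) := by
      intro P' u' ψ' hu' hom
      have hψpf : (𝔻.comp v).PoleFree (ψ' : F) Q := poleFree_coeff hx hu' (I.hreg a) hom
      have hψord : 𝔻.red v ψ' ≠ 0 → 0 ≤ Q.ord (𝔻.red v ψ') := fun h =>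
        (𝔻.comp v).ord_red_nonneg h hu'.sm hψpf
      have htord : Q.ord (𝔻.red v u') = 1 := hu'.ord_red
      have ht0 : 𝔻.red v u' ≠ 0 := hu'.red_ne_zero
      have hreg : 0 ≤ Q.ord ((𝔻.comp v).red u' *
          ((𝔻.comp v).red ⟨y, hy v⟩ * (𝔻.comp v).red ψ')) := by
        show 0 ≤ Q.ord (𝔻.red v u' * (𝔻.red v ⟨y, hy v⟩ * 𝔻.red v ψ'))
        rw [hyred v]
        by_cases h : 𝔻.red v ψ' = 0
        · rw [h, mul_zero, mul_zero, Place.ord_zero]
        by_cases h' : ft v = 0
        · rw [h', zero_mul, mul_zero, Place.ord_zero]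
        rw [Q.ord_mul ht0 (mul_ne_zero h' h), Q.ord_mul h' h, htord]
        have h1 := hord v h' Q
        have h2 := hψord h
        omega
      obtain ⟨c, hc, hres⟩ := disc_residue_sum hx hu' ⟨y, hy v⟩ ψ' hψpf Pol
        (fun P _ hP => hPol P hP) hreg
      refine ⟨c, ?_, ?_, hψord⟩
      · rw [← hc]
        have hfilter : Pol.filter (fun P => 𝔻.r P = Sum.inl (v, Q)) =
            Pol.filter (fun P => (𝔻.comp v).r P = some Q) := by
          ext P
          simp only [Finset.mem_filter, 𝔻.comp_r_eq_some_iff]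
        rw [hfilter]
        refine Finset.sum_congr rfl fun P _ => ?_
        rw [hom, mul_smul]
      · have hres' : 𝔻.B.res c =
            valF 𝔻.Hk Q (𝔻.red v u' * (𝔻.red v ⟨y, hy v⟩ * 𝔻.red v ψ')) := hres
        rw [hres', hyred v]
    by_cases hcen : ∃ i, (I.c i, I.Q i) = (v, Q)
    · -- the disc of a centre: the given chart
      obtain ⟨i, hi⟩ := hcen
      have hv : I.c i = v := congrArg Prod.fst hi
      have hQ : I.Q i = Q := congrArg Prod.snd hi
      subst hv
      subst hQ
      obtain ⟨c, hc, hres, hψord⟩ := key (I.P i) (I.u i) (I.psi a i) (I.hu i) (I.hpsi a i)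
      refine ⟨c, hc, fun h => absurd rfl (h i), fun j hj => ?_⟩
      have hji : j = i := I.hinj hj
      subst hji
      rw [hres, ← mul_assoc]
      have htmem : 𝔻.red (I.c j) (I.u j) * ft (I.c j) ∈ (I.Q j).toValuationSubring := by
        apply ffp_mem_of_ord_nonneg
        by_cases h' : ft (I.c j) = 0
        · rw [h', mul_zero, Place.ord_zero]
        rw [(I.Q j).ord_mul (hneu j) h', hordu j]
        have := hord (I.c j) h' (I.Q j)
        omega
      have hψmem : 𝔻.red (I.c j) (I.psi a j) ∈ (I.Q j).toValuationSubring := by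
        apply ffp_mem_of_ord_nonneg
        by_cases h : 𝔻.red (I.c j) (I.psi a j) = 0
        · rw [h, Place.ord_zero]
        · exact hψord h
      rw [valF_mul 𝔻.Hk _ htmem hψmem]
    · -- another smooth disc: any chart
      push Not at hcen
      obtain ⟨P', hP'⟩ := 𝔻.exists_r_of_isSm hsm
      obtain ⟨u', hu'⟩ := (𝔻.comp v).exists_isGoodUnif ((𝔻.comp_r_eq_some_iff).mpr hP')
      obtain ⟨ψ', hψ'⟩ := I.hint a v P' Q u' hu'
      obtain ⟨c, hc, hres, hψord⟩ := key P' u' ψ' hu' hψ'
      refine ⟨c, hc, fun _ => ?_, fun i hi => absurd hi (hcen i)⟩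
      rw [hres]
      by_cases h : 𝔻.red v ψ' = 0
      · rw [h, mul_zero, mul_zero, valF_zero]
      by_cases h' : ft v = 0
      · rw [h', zero_mul, mul_zero, valF_zero]
      have htord' : Q.ord (𝔻.red v u') = 1 := hu'.ord_red
      have ht0' : 𝔻.red v u' ≠ 0 := hu'.red_ne_zero
      have hordprod : Q.ord (𝔻.red v u' * (ft v * 𝔻.red v ψ')) =
          1 + (Q.ord (ft v) + Q.ord (𝔻.red v ψ')) := by
        rw [Q.ord_mul ht0' (mul_ne_zero h' h), Q.ord_mul h' h, htord']
      have h1 := hoff v h' Q hcen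
      have h2 := hψord h
      have hmem : 𝔻.red v u' * (ft v * 𝔻.red v ψ') ∈ Q.toValuationSubring := by
        apply ffp_mem_of_ord_nonneg
        rw [hordprod]; omega
      rw [valF_eq_zero_iff 𝔻.Hk Q hmem]
      right
      rw [hordprod]; omega
  choose cd hcsum hcoff hccen using hdisc
  -- the constants indexed by the points of the special fibre
  set cT : Pts ι E k Ft → Fin g → 𝔻.B.A := fun x a =>
    match x with
    | Sum.inl (v, Q) => if h : 𝔻.IsSm v Q then cd v Q h a else 0
    | Sum.inr _ => 0 with hcT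
  have hcT_sm : ∀ (v : ι) (Q : Place k Ft) (h : 𝔻.IsSm v Q) (a : Fin g),
      cT (Sum.inl (v, Q)) a = cd v Q h a := by
    intro v Q h a
    show (if h : 𝔻.IsSm v Q then cd v Q h a else 0) = _
    rw [dif_pos h]
  -- the set of relevant points
  set T : Finset (Pts ι E k Ft) :=
    Pol.image 𝔻.r ∪ Finset.univ.image (fun i => (Sum.inl (I.c i, I.Q i) : Pts ι E k Ft)) with hTdef
  have hTimg : ∀ P ∈ Pol, 𝔻.r P ∈ T := fun P hP =>
    Finset.mem_union_left _ (Finset.mem_image_of_mem _ hP)
  -- fibrewise sums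
  have hfib : ∀ (x : Pts ι E k Ft) (a : Fin g), x ∈ Pol.image 𝔻.r →
      ∑ P ∈ Pol.filter (fun P => 𝔻.r P = x), residue hx P (y • I.om a) = ((cT x a : 𝔻.B.A) : L) := by
    intro x a hx'
    obtain ⟨P0, hP0, hP0x⟩ := Finset.mem_image.mp hx'
    rcases x with ⟨v, Q⟩ | e
    · have hsm : 𝔻.IsSm v Q := 𝔻.isSm_of_r hP0x
      rw [hcT_sm v Q hsm a]
      exact hcsum v Q hsm a
    · show _ = ((0 : 𝔻.B.A) : L)
      rw [ZeroMemClass.coe_zero]
      refine Finset.sum_eq_zero fun P hP => ?_
      have hPe : 𝔻.r P = Sum.inr e := (Finset.mem_filter.mp hP).2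
      exact residue_smul_eq_zero hx (I.hreg a) y P (hyann e P hPe)
  -- the residue theorem, grouped by the fibres of `r`
  have hglob : ∀ a, ∑ x ∈ Pol.image 𝔻.r, ((cT x a : 𝔻.B.A) : L) = 0 := by
    intro a
    have h0 := Fermat.Agent.RR.ResidueGlob.finsum_residue_eq_zero hx (y • I.om a)
    have hsupp : Function.support (fun v : Place L F => residue hx v (y • I.om a)) ⊆ ↑Pol := by
      intro v hv
      by_contra hvP
      apply hv
      apply residue_smul_eq_zero hx (I.hreg a)
      by_contra hneg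
      exact hvP (Finset.mem_coe.mpr (hPol v (not_le.mp hneg)))
    rw [finsum_eq_sum_of_support_subset _ hsupp] at h0
    rw [← h0, ← Finset.sum_fiberwise_of_maps_to (s := Pol) (t := Pol.image 𝔻.r) (g := 𝔻.r)
      (fun P hP => Finset.mem_image_of_mem _ hP)]
    exact Finset.sum_congr rfl fun x hx' => (hfib x a hx').symm
  -- reduce modulo the maximal ideal
  have hglobk : ∀ a, ∑ x ∈ Pol.image 𝔻.r, 𝔻.B.res (cT x a) = 0 := by
    intro a
    have h1 : (∑ x ∈ Pol.image 𝔻.r, cT x a : 𝔻.B.A) = 0 := by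
      apply Subtype.ext
      rw [← 𝔻.B.A.subtype_apply, map_sum]
      exact hglob a
    have h2 := congrArg 𝔻.B.res h1
    rw [map_sum, map_zero] at h2
    exact h2
  -- the terms off the centres vanish
  have hvanish : ∀ (x : Pts ι E k Ft) (a : Fin g),
      (∀ i, (Sum.inl (I.c i, I.Q i) : Pts ι E k Ft) ≠ x) → 𝔻.B.res (cT x a) = 0 := by
    intro x a hx'
    rcases x with ⟨v, Q⟩ | e
    · by_cases hsm : 𝔻.IsSm v Q
      · rw [hcT_sm v Q hsm a]
        exact hcoff v Q hsm a (fun i hi => hx' i (by rw [hi]))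
      · show 𝔻.B.res (if h : 𝔻.IsSm v Q then cd v Q h a else 0) = 0
        rw [dif_neg hsm, map_zero]
    · show 𝔻.B.res (0 : 𝔻.B.A) = 0
      rw [map_zero]
  -- the linear system for the polar coefficients
  have hsys : ∀ a, ∑ i, gam i * valF 𝔻.Hk (I.Q i) (𝔻.red (I.c i) (I.psi a i)) = 0 := by
    intro a
    have h1 : ∑ x ∈ T, 𝔻.B.res (cT x a) = 0 := by
      rw [← hglobk a]
      symm
      refine Finset.sum_subset Finset.subset_union_left fun x hxT hxP => ?_
      -- a centre without pole of `y` on its disc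
      rcases x with ⟨v, Q⟩ | e
      · by_cases hsm : 𝔻.IsSm v Q
        · rw [hcT_sm v Q hsm a]
          have h2 := hcsum v Q hsm a
          have hempty : Pol.filter (fun P => 𝔻.r P = Sum.inl (v, Q)) = ∅ := by
            rw [Finset.filter_eq_empty_iff]
            intro P hP hPr
            exact hxP (Finset.mem_image.mpr ⟨P, hP, hPr⟩)
          rw [hempty, Finset.sum_empty] at h2
          have h3 : cd v Q hsm a = 0 := Subtype.ext h2.symm
          rw [h3, map_zero]
        · show 𝔻.B.res (if h : 𝔻.IsSm v Q then cd v Q h a else 0) = 0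
          rw [dif_neg hsm, map_zero]
      · show 𝔻.B.res (0 : 𝔻.B.A) = 0
        rw [map_zero]
    have hsub : Finset.univ.image (fun i => (Sum.inl (I.c i, I.Q i) : Pts ι E k Ft)) ⊆ T :=
      Finset.subset_union_right
    rw [← Finset.sum_subset hsub (fun x _ hx' => hvanish x a (fun i hi =>
      hx' (hi ▸ Finset.mem_image_of_mem _ (Finset.mem_univ i)))),
      Finset.sum_image (fun i _ j _ hij => I.hinj (Sum.inl.inj hij))] at h1
    rw [← h1]
    refine Finset.sum_congr rfl fun i _ => ?_
    rw [hcT_sm (I.c i) (I.Q i) (isSm_Q I i) a]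
    exact (hccen (I.c i) (I.Q i) (isSm_Q I i) a i rfl).symm
  have hgam0 := I.nondeg gam hsys
  -- every component is regular everywhere
  have hall : ∀ v, ft v ≠ 0 → ∀ Q : Place k Ft, 0 ≤ Q.ord (ft v) := by
    intro v hv Q
    by_cases h : ∃ i, (I.c i, I.Q i) = (v, Q)
    · obtain ⟨i, hi⟩ := h
      have hvi : I.c i = v := congrArg Prod.fst hi
      have hQi : I.Q i = Q := congrArg Prod.snd hi
      subst hvi
      subst hQi
      have hne : 𝔻.red (I.c i) (I.u i) ≠ 0 := hneu i
      have htmem : 𝔻.red (I.c i) (I.u i) * ft (I.c i) ∈ (I.Q i).toValuationSubring := by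
        apply ffp_mem_of_ord_nonneg
        rw [(I.Q i).ord_mul hne hv, hordu i]
        have := hord (I.c i) hv (I.Q i)
        omega
      have hi0 : gam i = 0 := congrFun hgam0 i
      rw [hgam] at hi0
      rcases (valF_eq_zero_iff 𝔻.Hk _ htmem).mp hi0 with h0 | hpos
      · exact absurd h0 (mul_ne_zero hne hv)
      · rw [(I.Q i).ord_mul hne hv, hordu i] at hpos
        omega
    · push Not at h
      exact hoff v hv Q h
  -- constants component by component
  have hconst : ∀ v, ∃ d : k, ft v = algebraMap k Ft d := by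
    intro v
    by_cases hv : ft v = 0
    · exact ⟨0, by rw [hv, map_zero]⟩
    · exact eq_algebraMap_of_forall_ord_nonneg 𝔻.Hk (hall v hv)
  choose d hd using hconst
  -- one constant
  have hedge : ∀ e, d (𝔻.src e) = d (𝔻.tgt e) := by
    intro e
    have h1 : valF 𝔻.Hk (𝔻.Qs e) (ft (𝔻.src e)) = valF 𝔻.Hk (𝔻.Qt e) (ft (𝔻.tgt e)) := s.matched e
    rw [hd (𝔻.src e), hd (𝔻.tgt e), valF_algebraMap, valF_algebraMap] at h1
    exact h1
  obtain ⟨a, ha⟩ := hconn d hedge
  exact ⟨a, fun v => by rw [← ha v]; exact hd v⟩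

end

end Fermat.Agent.ORD.NSN.NonSpecialN2
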