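/-
PROGRAMME ORD (S33), chapter NSN (helper9).  `LiftN9` = (LIFT) FROM A CHART RING THROUGH THE NODES:
the abstract reduction of `NSInputN9.LiftsMatched 𝔻` to two purely algebraic statements about ONE
ring `B ⊂ F` of functions regular along all the node tubes (e.g. the chart `chart A t` of the nodal
model if it contains all the nodes):

* `le_G`, `poleFree` : `B` is integral on every component and has no poles on the annuli;
* `glue` (L1) : a tuple `(a v)` with `a v ∈ red_v B` for all `v`, matched at the nodes, is the tuple of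
  reductions of ONE element of `B` (for two components `P_1, P_2`: `b_1 - b_2 ∈ P_1 + P_2` as soon as
  `b_1, b_2` have matched values at the nodes, then `b := b_1 - p_1 = b_2 + p_2`);
* `denom` (L2) : every `f ∈ Ft` regular at the branches of the component `v` is a quotient
  `(σ f) / σ` with `σ, σ f ∈ red_v B` and `σ` of value `1` at all the branches of `v` (the semi-local
  ring of `red_v B` at the branches is the intersection of the valuation rings of the branches: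
  normality of the component at the branches + the Chinese remainder theorem in `red_v B`).

`liftsMatched : LiftChart 𝔻 → LiftsMatched 𝔻` : write `f v = (σ v f v) / σ v`, lift the two matched
tuples `σ` and `σ f` to `s, b ∈ B`, put `y := b / s`; `s` is a unit of every Gauss ring and has no
zero on the annuli by (NODE) (its branch values are `1`).
-/
import Mathlib
import Fermat.Agent.ORD.NSN.NSInputN9
import Fermat.Agent.ORD.ANN.MatchedDatum3

set_option autoImplicit false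
set_option linter.unusedSectionVars false
set_option linter.style.longLine false

namespace Fermat.Agent.ORD.NSN.LiftN9

open AlgebraicCurve Fermat.Agent.X0.FF Fermat.Agent.RR.LSpace Fermat.Agent.MW.EMB.Value6
open Fermat.Agent.ORD.ANN.Side3
open Fermat.Agent.ORD.SEMIRED.SemiRedDatum9 Fermat.Agent.ORD.NSN.NSInputN9

noncomputable section

variable {L F k Ft : Type*} [Field L] [Field F] [Algebra L F] [Field k] [Field Ft] [Algebra k Ft]
variable {ι E : Type*}

/-- **A chart ring through the nodes**, with the two algebraic inputs (L1), (L2) of (LIFT). -/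
structure LiftChart (𝔻 : SemiRedDatum L F k Ft ι E) where
  /-- the ring of functions regular along the node tubes -/
  B : Subring F
  le_G : ∀ v, B ≤ 𝔻.G v
  poleFree : ∀ b ∈ B, ∀ e, 𝔻.PoleFreeAnn b e
  /-- (L1) gluing of matched tuples of reductions -/
  glue : ∀ a : ι → Ft, (∀ v, ∃ b, ∃ hb : b ∈ B, 𝔻.red v ⟨b, le_G v hb⟩ = a v) →
    (∀ e, valF 𝔻.Hk (𝔻.Qs e) (a (𝔻.src e)) = valF 𝔻.Hk (𝔻.Qt e) (a (𝔻.tgt e))) →
    ∃ b, ∃ hb : b ∈ B, ∀ v, 𝔻.red v ⟨b, le_G v hb⟩ = a v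
  /-- (L2) denominators of value `1` at the branches -/
  denom : ∀ (v : ι) (f : Ft), (∀ e, 𝔻.src e = v → 0 ≤ (𝔻.Qs e).ord f) →
    (∀ e, 𝔻.tgt e = v → 0 ≤ (𝔻.Qt e).ord f) →
    ∃ σ : Ft, σ ≠ 0 ∧ (∃ b, ∃ hb : b ∈ B, 𝔻.red v ⟨b, le_G v hb⟩ = σ) ∧
      (∃ b, ∃ hb : b ∈ B, 𝔻.red v ⟨b, le_G v hb⟩ = σ * f) ∧
      (∀ e, 𝔻.src e = v → valF 𝔻.Hk (𝔻.Qs e) σ = 1) ∧
      (∀ e, 𝔻.tgt e = v → valF 𝔻.Hk (𝔻.Qt e) σ = 1)

theorem mem_of_valF_eq_one {K F' : Type*} [Field K] [Field F'] [Algebra K F'] (H : LHyp K F')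
    (Q : Place K F') {f : F'} (h : valF H Q f = 1) : f ∈ Q.toValuationSubring := by
  classical
  by_contra hn
  unfold valF at h
  rw [dif_neg hn] at h
  exact zero_ne_one h

/-- **(LIFT) from a chart ring through the nodes.** -/
theorem liftsMatched {𝔻 : SemiRedDatum L F k Ft ι E} (C : LiftChart 𝔻) : LiftsMatched 𝔻 := by
  intro f hfs hft hfm
  have hNM := Fermat.Agent.ORD.ANN.MatchedDatum3.nodeMatched 𝔻
  -- the denominators
  choose σ hσ0 hσB hσfB hσs hσt using fun v => C.denom v (f v)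
    (fun e he => by rw [← he]; exact hfs e) (fun e he => by rw [← he]; exact hft e)
  -- the two matched tuples
  have hσm : ∀ e, valF 𝔻.Hk (𝔻.Qs e) (σ (𝔻.src e)) = valF 𝔻.Hk (𝔻.Qt e) (σ (𝔻.tgt e)) :=
    fun e => by rw [hσs _ e rfl, hσt _ e rfl]
  have hσfm : ∀ e, valF 𝔻.Hk (𝔻.Qs e) (σ (𝔻.src e) * f (𝔻.src e)) =
      valF 𝔻.Hk (𝔻.Qt e) (σ (𝔻.tgt e) * f (𝔻.tgt e)) := by
    intro e
    rw [valF_mul 𝔻.Hk _ (mem_of_valF_eq_one 𝔻.Hk _ (hσs _ e rfl))
        (ffp_mem_of_ord_nonneg _ (hfs e)),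
      valF_mul 𝔻.Hk _ (mem_of_valF_eq_one 𝔻.Hk _ (hσt _ e rfl))
        (ffp_mem_of_ord_nonneg _ (hft e)), hσs _ e rfl, hσt _ e rfl, one_mul, one_mul, hfm e]
  obtain ⟨s, hsB, hs⟩ := C.glue σ hσB hσm
  obtain ⟨b, hbB, hb⟩ := C.glue (fun v => σ v * f v) hσfB hσfm
  have hsG : ∀ v, s ∈ 𝔻.G v := fun v => C.le_G v hsB
  have hbG : ∀ v, b ∈ 𝔻.G v := fun v => C.le_G v hbB
  have hsred : ∀ v, 𝔻.red v ⟨s, hsG v⟩ ≠ 0 := fun v => by rw [hs v]; exact hσ0 v
  have hsinv : ∀ v, s⁻¹ ∈ 𝔻.G v := fun v => (𝔻.side v).inv_mem (g := ⟨s, hsG v⟩) (hsred v)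
  have hyG : ∀ v, b * s⁻¹ ∈ 𝔻.G v := fun v => (𝔻.G v).mul_mem (hbG v) (hsinv v)
  refine ⟨b * s⁻¹, hyG, fun v => ?_, fun e P hP => ?_⟩
  · have e1 : (⟨b * s⁻¹, hyG v⟩ : 𝔻.G v) = ⟨b, hbG v⟩ * ⟨s⁻¹, hsinv v⟩ := Subtype.ext rfl
    rw [e1, map_mul, hb v]
    have e2 := (𝔻.side v).red_inv (g := ⟨s, hsG v⟩) (hsred v)
    have e3 : 𝔻.red v ⟨s⁻¹, hsinv v⟩ = (σ v)⁻¹ := by
      rw [← hs v]
      exact e2
    rw [e3, mul_comm (σ v) (f v), mul_assoc, mul_inv_cancel₀ (hσ0 v), mul_one]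
  · have hs0 : s ≠ 0 := (𝔻.side (𝔻.src e)).coe_ne_zero_of_red_ne_zero (hsred (𝔻.src e))
    rcases eq_or_ne b 0 with rfl | hb0
    · rw [zero_mul, Place.ord_zero]
    have hspf : 𝔻.PoleFreeAnn s e := C.poleFree s hsB e
    have hsord : P.ord s = 0 := by
      have h1 := hspf P hP
      by_contra hne
      have hpos : 0 < P.ord s := lt_of_le_of_ne h1 (Ne.symm hne)
      have h4 := (hNM e s (hsG _) (hsG _) hspf).2.2.2 ⟨P, hP, hpos⟩
      rw [hs (𝔻.src e), hσs _ e rfl] at h4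
      exact one_ne_zero h4
    rw [P.ord_mul hb0 (inv_ne_zero hs0), Place.ord_inv, hsord, neg_zero, add_zero]
    exact C.poleFree b hbB e P hP

end

end Fermat.Agent.ORD.NSN.LiftN9
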