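/-
PROGRAMME ORD (S33), chapter NSN (helper9).  `NSMainN9` = THE ENTRY POINT OF CHAPTER NSN: non-special
systems on a semistable datum from the four inputs of the interface chapter:

* `C : ∀ w, LinkC6.ChartCoverC (𝔻.comp w) (κ w)` : a chart cover of the smooth part of every component;
* `hlift : LiftsMatched 𝔻` (LIFT), `hconn : GraphConn 𝔻` (CONN);
* Riemann-Roch for `F / L` (`hx : IsGen L x`, `HasCanonicalDivisor`), `L` algebraically closed of
  characteristic zero, `k` infinite, finitely many components and nodes.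

`exists_nsSystems n Bad` : `n` non-special systems `NSSystemN 𝔻 (genus L F)` with pairwise distinct
smooth discs off `Bad` and a common auxiliary smooth point (glue of `NSFinalN9.exists_nsSystemsN`,
`NSExistsN9.dlink_of_cover` and helper2's `NonSpecialN2.nonspecialN`).
-/
import Mathlib
import Fermat.Agent.ORD.NSN.NSFinalN9
import Fermat.Agent.ORD.NSN.NonSpecialN2

set_option autoImplicit false
set_option linter.unusedSectionVars false
set_option linter.style.longLine false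

namespace Fermat.Agent.ORD.NSN.NSMainN9

open AlgebraicCurve Fermat.Agent.X0.FF Fermat.Agent.RR.LSpace Fermat.Agent.MW.EMB.Value6
open Fermat.Agent.ORD.SEMIRED.SemiRedDatum9 Fermat.Agent.ORD.KERN.KerDefs9
  Fermat.Agent.ORD.REDN.LinkC6
  Fermat.Agent.ORD.NSN.NSInputN9 Fermat.Agent.ORD.NSN.NSExistsN9 Fermat.Agent.ORD.NSN.NSFinalN9
  Fermat.Agent.ORD.NSN.NonSpecialN2

noncomputable section

variable {L F k Ft : Type*} [Field L] [Field F] [Algebra L F] [Field k] [Field Ft] [Algebra k Ft]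
variable [IsAlgClosed L] [CharZero L] {x : F}
variable {ι E : Type*} {𝔻 : SemiRedDatum L F k Ft ι E}
variable [HasCanonicalDivisor (K := L) (F := F)] [Infinite k] [Finite ι] [Nonempty ι] [Finite E]

/-- **(NS) on a semistable datum**: `n` non-special systems with pairwise distinct smooth discs off
`Bad`, and a common auxiliary smooth point `(c0, Q0)` off `Bad` and off all the centres. -/
theorem exists_nsSystems (hx : IsGen L x) {κ : ι → Type*}
    (C : ∀ w, ChartCoverC (𝔻.comp w) (κ w)) (hlift : LiftsMatched 𝔻) (hconn : GraphConn 𝔻)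
    (Bad : Set (ι × Place k Ft)) (hBad : Bad.Finite) (n : ℕ) :
    ∃ (S : Fin n → NSSystemN 𝔻 (genus L F)) (c0 : ι) (Q0 : Place k Ft), (c0, Q0) ∉ Bad ∧
      (∀ a, (S a).c0 = c0 ∧ (S a).Q0 = Q0) ∧
      (∀ a i, ((S a).c i, (S a).Q i) ∉ Bad) ∧
      (∀ a b i j, ((S a).c i, (S a).Q i) = ((S b).c j, (S b).Q j) → a = b ∧ i = j) ∧
      (∀ a i, ((S a).c i, (S a).Q i) ≠ (c0, Q0)) :=
  exists_nsSystemsN hx (dlink_of_cover 𝔻 hx C) (fun I => nonspecialN hx hlift hconn I) Bad hBad n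

/-- one system. -/
theorem exists_nsSystem (hx : IsGen L x) {κ : ι → Type*}
    (C : ∀ w, ChartCoverC (𝔻.comp w) (κ w)) (hlift : LiftsMatched 𝔻) (hconn : GraphConn 𝔻)
    (Bad : Set (ι × Place k Ft)) (hBad : Bad.Finite) :
    ∃ S : NSSystemN 𝔻 (genus L F), (∀ i, (S.c i, S.Q i) ∉ Bad) ∧ (S.c0, S.Q0) ∉ Bad :=
  exists_nsSystemN hx (dlink_of_cover 𝔻 hx C) (fun I => nonspecialN hx hlift hconn I) Bad hBad

/-- three systems with pairwise distinct discs. -/
theorem exists_three_nsSystems (hx : IsGen L x) {κ : ι → Type*}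
    (C : ∀ w, ChartCoverC (𝔻.comp w) (κ w)) (hlift : LiftsMatched 𝔻) (hconn : GraphConn 𝔻)
    (Bad : Set (ι × Place k Ft)) (hBad : Bad.Finite) :
    ∃ S0 S1 S2 : NSSystemN 𝔻 (genus L F),
      (∀ i, (S0.c i, S0.Q i) ∉ Bad) ∧ (∀ i, (S1.c i, S1.Q i) ∉ Bad) ∧
      (∀ i, (S2.c i, S2.Q i) ∉ Bad) ∧
      (∀ i j, (S0.c i, S0.Q i) ≠ (S1.c j, S1.Q j)) ∧ (∀ i j, (S0.c i, S0.Q i) ≠ (S2.c j, S2.Q j)) ∧
      (∀ i j, (S1.c i, S1.Q i) ≠ (S2.c j, S2.Q j)) :=
  exists_three_nsSystemsN hx (dlink_of_cover 𝔻 hx C) (fun I => nonspecialN hx hlift hconn I)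
    Bad hBad

end

end Fermat.Agent.ORD.NSN.NSMainN9
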